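import Fermat.Agent.Root.SummarySelmerPolynomial
import Fermat.Agent.TraceDistribution.Basic

/-!
# Primes modulo which `X ^ n - X ^ (n - 1) + (-1) ^ (n + 1)` is irreducible

The substitution `X ↦ -1 / X` turns it into Selmer's `X ^ n - X - 1`, irreducible modulo
infinitely many primes.
-/

set_option autoImplicit false

noncomputable section

open Polynomial IntermediateField
open scoped Polynomial

namespace FA.KedlayaDisc

theorem irreducible_reversed {F : Type*} [Field F] (m : ℕ)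
    (hg : Irreducible (X ^ (m + 2) - X - 1 : F[X])) :
    Irreducible (X ^ (m + 2) - X ^ (m + 1) + C ((-1) ^ (m + 3)) : F[X]) := by
  have := Fact.mk hg
  obtain ⟨r, hr⟩ : ∃ r : AdjoinRoot (X ^ (m + 2) - X - 1 : F[X]), r ^ (m + 2) - r - 1 = 0 :=
    ⟨AdjoinRoot.root _, by
      have h := AdjoinRoot.eval₂_root (X ^ (m + 2) - X - 1 : F[X])
      simpa using h⟩
  have hg1 : (X ^ (m + 2) - X - 1 : F[X]).Monic := by monicity!
  have hgd : (X ^ (m + 2) - X - 1 : F[X]).natDegree = m + 2 := by compute_degree!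
  have hh1 : (X ^ (m + 2) - X ^ (m + 1) + C ((-1) ^ (m + 3)) : F[X]).Monic := by monicity!
  have hhd : (X ^ (m + 2) - X ^ (m + 1) + C ((-1) ^ (m + 3)) : F[X]).natDegree = m + 2 := by
    compute_degree!
  have hgr : aeval r (X ^ (m + 2) - X - 1 : F[X]) = 0 := by simpa using hr
  have hr0 : r ≠ 0 := fun h => by simp [h] at hr
  obtain ⟨s, hs⟩ : ∃ s, s = -r⁻¹ := ⟨_, rfl⟩
  have hs0 : aeval s (X ^ (m + 2) - X ^ (m + 1) + C ((-1) ^ (m + 3)) : F[X]) = 0 := by
    simp only [map_add, map_sub, map_pow, map_neg, map_one, aeval_X, hs]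
    rw [neg_pow, neg_pow r⁻¹ (m + 1), inv_pow, inv_pow]
    refine (mul_eq_zero.1 (?_ : _ * r ^ (m + 2) = 0)).resolve_right (pow_ne_zero _ hr0)
    have e1 : (r ^ (m + 2))⁻¹ * r ^ (m + 2) = 1 := inv_mul_cancel₀ (pow_ne_zero _ hr0)
    have e2 : (r ^ (m + 1))⁻¹ * r ^ (m + 2) = r := by
      rw [pow_succ r (m + 1), ← mul_assoc, inv_mul_cancel₀ (pow_ne_zero _ hr0), one_mul]
    linear_combination ((-1) ^ (m + 2)) * e1 - ((-1) ^ (m + 1)) * e2 + ((-1) ^ (m + 1)) * hr
  have hint : IsIntegral F r := ⟨_, hg1, by rwa [← aeval_def]⟩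
  have hints : IsIntegral F s := ⟨_, hh1, by rwa [← aeval_def]⟩
  have heq : F⟮r⟯ = F⟮s⟯ := le_antisymm
    (adjoin_simple_le_iff.2 (by
      rw [show r = -s⁻¹ by rw [hs, inv_neg, inv_inv, neg_neg]]
      exact neg_mem (inv_mem (mem_adjoin_simple_self F s))))
    (adjoin_simple_le_iff.2 (hs ▸ neg_mem (inv_mem (mem_adjoin_simple_self F r))))
  have hdeg : (minpoly F s).natDegree = m + 2 := by
    rw [← adjoin.finrank hints, ← heq, adjoin.finrank hint,
      ← minpoly.eq_of_irreducible_of_monic hg hgr hg1, hgd]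
  rw [eq_of_monic_of_dvd_of_natDegree_le (minpoly.monic hints) hh1 (minpoly.dvd F s hs0)
    (by rw [hhd, hdeg])]
  exact minpoly.irreducible hints

/-- **Auxiliary primes.** -/
theorem exists_auxiliary_prime (k B : ℕ) : ∃ l : ℕ, l.Prime ∧ B < l ∧ k + 2 < l ∧
    Irreducible (X ^ (k + 2) - X ^ (k + 1) + C ((-1) ^ (k + 3)) : (ZMod l)[X]) := by
  have hd := FA.Summary.selmer_polynomial_irreducible_mod_density (n := k + 2) (by omega)
  obtain ⟨P, hP⟩ : ∃ P : ℕ → Prop, ∀ l, P l ↔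
      Irreducible (X ^ (k + 2) - X - 1 : (ZMod l)[X]) := ⟨_, fun _ => Iff.rfl⟩
  simp only [← hP] at hd
  have hinf := FA.TraceDist.infinite_of_density (P := P) (by positivity) hd
  obtain ⟨l, ⟨hl, hirr⟩, hgt⟩ := hinf.exists_gt (max B (k + 2))
  rw [hP] at hirr
  have := Fact.mk hl
  exact ⟨l, hl, lt_of_le_of_lt (le_max_left _ _) hgt, lt_of_le_of_lt (le_max_right _ _) hgt,
    irreducible_reversed k hirr⟩

end FA.KedlayaDisc

end
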