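import Fermat.Agent.KedlayaDisc.Parameters

/-!
# The field

The number of real roots of `f = P + b` is fixed by parity and counts the real places; `|disc f|`
is the absolute value of the product of the forms, and when that is squarefree the field of a root
has ring of integers `ℤ[α]`.
-/

set_option autoImplicit false

noncomputable section

open Polynomial Finset NumberField Module
open scoped Matrix

namespace FA.KedlayaDisc

variable {k : ℕ} {a₀ b : ℤ} {a : Fin k → ℤ}

/-- With as many distinct real roots as its degree, all roots of `f` are real. -/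
theorem conj_eq_of_root {f : ℤ[X]} (hmon : f.Monic)
    (hcard : f.natDegree ≤ (UchidaYamamura.realRoots f).card) {z : ℂ}
    (hz : (f.map (Int.castRingHom ℂ)).eval z = 0) : starRingEnd ℂ z = z := by
  classical
  have hne : f.map (Int.castRingHom ℂ) ≠ 0 := map_monic_ne_zero hmon
  have hsub : (UchidaYamamura.realRoots f).image (fun r : ℝ => (r : ℂ)) ⊆
      (f.map (Int.castRingHom ℂ)).roots.toFinset := fun y hy => by
    obtain ⟨r, hr, rfl⟩ := mem_image.1 hy
    rw [Multiset.mem_toFinset, mem_roots hne, IsRoot.def]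
    rw [UchidaYamamura.mem_realRoots hmon] at hr
    rw [show f.map (Int.castRingHom ℂ) = (f.map (Int.castRingHom ℝ)).map Complex.ofRealHom by
      rw [Polynomial.map_map]; exact congrArg (fun g => f.map g) (RingHom.ext_int _ _),
      ← Complex.ofRealHom_eq_coe, eval_map_apply, hr, map_zero]
  have heq := eq_of_subset_of_card_le hsub (by
    rw [card_image_of_injective _ Complex.ofReal_injective]
    exact ((Multiset.toFinset_card_le _).trans (card_roots' _)).trans
      (natDegree_map_le.trans hcard))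
  have hmem : z ∈ (f.map (Int.castRingHom ℂ)).roots.toFinset := by
    rw [Multiset.mem_toFinset, mem_roots hne]; exact hz
  obtain ⟨r, -, rfl⟩ := mem_image.1 (heq ▸ hmem)
  exact Complex.conj_ofReal r

theorem card_realRoots (hirr : Irreducible ((kPolyAdd k a₀ a b).map (Int.castRingHom ℚ)))
    (h : k + 1 ≤ (UchidaYamamura.realRoots (kPolyAdd k a₀ a b)).card) :
    (kPolyAdd k a₀ a b).natDegree ≤ (UchidaYamamura.realRoots (kPolyAdd k a₀ a b)).card := by
  classical
  obtain ⟨hm, hd⟩ := kPolyAdd_monic k a₀ a b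
  have hp := (UchidaYamamura.sign_conjugation hm hirr).2
  have hle : (UchidaYamamura.realRoots (kPolyAdd k a₀ a b)).card ≤ k + 2 :=
    ((Multiset.toFinset_card_le _).trans (card_roots' _)).trans (natDegree_map_le.trans hd.le)
  omega

/-- Parity fixes the number of real roots. -/
theorem card_realRoots_eq (hirr : Irreducible ((kPolyAdd k a₀ a b).map (Int.castRingHom ℚ)))
    {s : ℕ} (hs : 2 * s ≤ k + 2)
    (h1 : k + 1 - min (2 * s) (k + 1) ≤ (UchidaYamamura.realRoots (kPolyAdd k a₀ a b)).card)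
    (h2 : (UchidaYamamura.realRoots (kPolyAdd k a₀ a b)).card ≤ k + 2 - min (2 * s) (k + 1)) :
    (UchidaYamamura.realRoots (kPolyAdd k a₀ a b)).card + 2 * s = k + 2 := by
  classical
  obtain ⟨hm, hd⟩ := kPolyAdd_monic k a₀ a b
  have hp := (UchidaYamamura.sign_conjugation hm hirr).2
  rcases le_or_gt (2 * s) (k + 1) with h | h
  · rw [min_eq_left h] at h1 h2
    omega
  · rw [min_eq_right h.le] at h1 h2
    omega

variable {K : Type*} [Field K] [CharZero K]

theorem norm_algebraMap_sub (pb : PowerBasis ℚ K) (c : ℚ) :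
    Algebra.norm ℚ (algebraMap ℚ K c - pb.gen) = (minpoly ℚ pb.gen).eval c := by
  rw [Algebra.norm_eq_matrix_det pb.basis, map_sub, AlgHom.commutes,
    Matrix.algebraMap_eq_diagonal, ← charpoly_leftMulMatrix, Matrix.eval_charpoly]
  rfl

theorem abs_discr_powerBasis (h : Adm k a₀ a) (pb : PowerBasis ℚ K)
    (hmin : minpoly ℚ pb.gen = (kPolyAdd k a₀ a b).map (Int.castRingHom ℚ)) :
    |Algebra.discr ℚ pb.basis| = |((∏ i, form k a₀ a b i : ℤ) : ℚ)| := by
  have : FiniteDimensional ℚ K := pb.finite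
  have hdim : finrank ℚ K = k + 2 := by
    rw [pb.finrank, ← pb.natDegree_minpoly, hmin, (kPolyAdd_monic k a₀ a b).1.natDegree_map,
      (kPolyAdd_monic k a₀ a b).2]
  rw [Algebra.discr_powerBasis_eq_norm, abs_mul, abs_pow, abs_neg, abs_one, one_pow, one_mul,
    hmin, derivative_map, derivative_kPolyAdd h, map_derivPoly, map_mul, map_prod, map_mul,
    map_prod, abs_mul, Fintype.prod_option, Int.cast_mul, abs_mul, Int.cast_prod,
    Finset.abs_prod, Finset.abs_prod]
  congr 1
  · have hc : IsPoint k a₀ a ((a₀ : ℚ) / ((k : ℚ) + 2)) (none : Option (Fin k)) :=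
      mul_div_cancel₀ _ (by positivity)
    rw [cast_form hc, ← hmin, ← norm_algebraMap_sub, map_sub, map_mul, aeval_C, aeval_X, aeval_C,
      eq_intCast,
      show algebraMap ℚ K ((k : ℚ) + 2) * pb.gen - algebraMap ℚ K (a₀ : ℚ) =
        algebraMap ℚ K (-((k : ℚ) + 2)) *
          (algebraMap ℚ K ((a₀ : ℚ) / ((k : ℚ) + 2)) - pb.gen) by
        rw [mul_sub, ← map_mul, neg_mul, mul_div_cancel₀ _ (by positivity), map_neg, map_neg]
        ring,
      map_mul, Algebra.norm_algebraMap, hdim, slope, abs_mul, abs_mul]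
    push_cast
    rw [abs_pow, abs_pow, abs_neg]
  · refine Finset.prod_congr rfl fun j _ => ?_
    rw [cast_form (R := ℚ) (c := (a j : ℚ)) (i := some j) rfl, ← hmin, ← norm_algebraMap_sub,
      slope, Int.cast_one, one_mul, map_sub, aeval_X, aeval_C, eq_intCast,
      ← neg_sub (algebraMap ℚ K (a j : ℚ)), ← neg_one_mul (algebraMap ℚ K _ - _), map_mul,
      ← map_one (algebraMap ℚ K), ← map_neg, Algebra.norm_algebraMap, abs_mul, abs_pow, abs_neg,
      abs_one, one_pow, one_mul]

variable [NumberField K]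

/-- The real places of the field of a root are the real roots. -/
theorem nrRealPlaces_eq_card_realRoots {f : ℤ[X]} (hmon : f.Monic) (pb : PowerBasis ℚ K)
    (hmin : minpoly ℚ pb.gen = f.map (Int.castRingHom ℚ)) :
    InfinitePlace.nrRealPlaces K = (UchidaYamamura.realRoots f).card := by
  classical
  have hconv : ∀ y : ℝ, aeval y (f.map (Int.castRingHom ℚ)) =
      (f.map (Int.castRingHom ℝ)).eval y := fun y => by
    rw [aeval_def, eval₂_eq_eval_map, Polynomial.map_map]
    exact congrArg (fun g => (f.map g).eval y) (RingHom.ext_int _ _)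
  have hmem : ∀ φ : {φ : K →+* ℂ // ComplexEmbedding.IsReal φ},
      φ.2.embedding pb.gen ∈ UchidaYamamura.realRoots f := fun φ => by
    rw [UchidaYamamura.mem_realRoots hmon, ← hconv, ← hmin]
    show aeval (φ.2.embedding.toRatAlgHom pb.gen) _ = 0
    rw [aeval_algHom_apply, minpoly.aeval, map_zero]
  rw [← InfinitePlace.card_real_embeddings, ← Fintype.card_coe]
  refine Fintype.card_of_bijective (f := fun φ => (⟨φ.2.embedding pb.gen, hmem φ⟩ :
    UchidaYamamura.realRoots f)) ⟨fun φ ψ h => ?_, fun r => ?_⟩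
  · refine Subtype.ext (congrArg AlgHom.toRingHom (pb.algHom_ext ?_ :
      φ.1.toRatAlgHom = ψ.1.toRatAlgHom))
    show φ.1 pb.gen = ψ.1 pb.gen
    rw [← φ.2.coe_embedding_apply, ← ψ.2.coe_embedding_apply]
    exact congrArg (fun x : UchidaYamamura.realRoots f => ((x : ℝ) : ℂ)) h
  · have hr : aeval (r : ℝ) (minpoly ℚ pb.gen) = 0 := by
      rw [hmin, hconv]; exact (UchidaYamamura.mem_realRoots hmon).1 r.2
    have hreal : ComplexEmbedding.IsReal (Complex.ofRealHom.comp (pb.lift (r : ℝ) hr).toRingHom) :=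
      ComplexEmbedding.isReal_iff.2 (RingHom.ext fun x => Complex.conj_ofReal _)
    refine ⟨⟨_, hreal⟩, Subtype.ext (Complex.ofReal_injective ?_)⟩
    show ((hreal.embedding pb.gen : ℝ) : ℂ) = _
    rw [hreal.coe_embedding_apply]
    show ((pb.lift (r : ℝ) hr pb.gen : ℝ) : ℂ) = _
    rw [pb.lift_gen]

/-- **A squarefree discriminant of a power basis.** -/
theorem adjoin_eq_top_of_squarefree (pb : PowerBasis ℚ K) (θ : 𝓞 K) (hθ : (θ : K) = pb.gen)
    {D : ℤ} (hD : |Algebra.discr ℚ pb.basis| = |(D : ℚ)|) (hsq : Squarefree D) :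
    Algebra.adjoin ℤ {θ} = (⊤ : Subalgebra ℤ (𝓞 K)) ∧ (discr K).natAbs = D.natAbs := by
  classical
  let e : Free.ChooseBasisIndex ℤ (𝓞 K) ≃ Fin pb.dim := Fintype.equivFinOfCardEq (by
    rw [← Module.finrank_eq_card_chooseBasisIndex, RingOfIntegers.rank, pb.finrank])
  let bO : Basis (Fin pb.dim) ℤ (𝓞 K) := (RingOfIntegers.basis K).reindex e
  let v : Fin pb.dim → 𝓞 K := fun j => θ ^ (j : ℕ)
  have hbase : ⇑pb.basis = (⇑((integralBasis K).reindex e)) ᵥ*
      ((bO.toMatrix v).map (algebraMap ℤ ℚ)).map (algebraMap ℚ K) := by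
    rw [show (bO.toMatrix v).map (algebraMap ℤ ℚ) =
        ((integralBasis K).reindex e).toMatrix pb.basis from ?_, Basis.toMatrix_map_vecMul]
    ext i j
    rw [Matrix.map_apply, Basis.toMatrix_apply, Basis.toMatrix_apply, Basis.repr_reindex_apply,
      Basis.repr_reindex_apply, pb.basis_eq_pow, ← hθ, ← integralBasis_repr_apply, ← map_pow]
  have hdet : Algebra.discr ℚ pb.basis =
      (((bO.toMatrix v).det ^ 2 * discr K : ℤ) : ℚ) := by
    rw [hbase, Algebra.discr_of_matrix_vecMul, ← RingHom.mapMatrix_apply, ← RingHom.map_det,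
      Basis.coe_reindex, Algebra.discr_reindex, ← coe_discr]
    simp
  have hD' : ((bO.toMatrix v).det ^ 2 * discr K).natAbs = D.natAbs := by
    rw [hdet, ← Int.cast_abs, ← Int.cast_abs, Int.cast_inj, Int.abs_eq_natAbs, Int.abs_eq_natAbs,
      Nat.cast_inj] at hD
    exact hD
  have hu : IsUnit (bO.toMatrix v).det :=
    hsq _ (Int.natAbs_dvd_natAbs.1 (by
      rw [← hD', Int.natAbs_mul, Int.natAbs_mul, Int.natAbs_pow, ← pow_two]
      exact dvd_mul_right _ _))
  refine ⟨eq_top_iff.2 fun z _ => ?_, ?_⟩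
  · have hspan := ((Module.Basis.is_basis_iff_det bO).2 (by rwa [Basis.det_apply])).2
    have hz : z ∈ Submodule.span ℤ (Set.range v) := hspan ▸ Submodule.mem_top
    refine (Submodule.span_le (p := Subalgebra.toSubmodule (Algebra.adjoin ℤ {θ}))).2 ?_ hz
    rintro _ ⟨j, rfl⟩
    exact pow_mem (Algebra.self_mem_adjoin_singleton _ _) _
  · rw [← hD', Int.natAbs_mul, Int.natAbs_pow, Int.isUnit_iff_natAbs_eq.1 hu, one_pow, one_mul]

end FA.KedlayaDisc

end
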