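import Fermat.Agent.KedlayaDisc.Main
import Fermat.Agent.UnramifiedGalois.Froehlich
import Fermat.Agent.ClassFieldTower.PPart

/-!
# Every finite group, unramified over totally real fields

A finite group embeds in the even permutations of the roots of a totally real polynomial with mild
reductions, so it is the group of an unramified extension of totally real fields; when it is
abelian it is a quotient of the class group of the base.
-/

set_option autoImplicit false

noncomputable section

namespace FA.KedlayaDisc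

open Polynomial NumberField Fermat.Agent Fermat.Agent.UnramifiedGalois

local notation "Qb" => AlgebraicClosure ℚ

/-- **Fröhlich's theorem over totally real fields.** -/
theorem exists_totally_real_unramified (G : Type*) [Group G] [Finite G] {N : ℕ} (hN : 0 < N) :
    ∃ (F L : Type) (_ : Field F) (_ : NumberField F) (_ : Field L) (_ : NumberField L)
      (_ : Algebra F L), IsGalois F L ∧ Nonempty ((L ≃ₐ[F] L) ≃* G) ∧ 1 < Module.finrank ℚ F ∧
        IsTotallyReal F ∧ IsTotallyReal L ∧ IsUnramifiedAtInfinitePlaces F L ∧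
        (∀ Q : Ideal (𝓞 L), Q.IsPrime → Q ≠ ⊥ → Q.ramificationIdx (𝓞 F) = 1) ∧
        IsCoprime (discr F) (N : ℤ) := by
  classical
  have := Fintype.ofFinite G
  obtain ⟨k, hk⟩ : ∃ k, k + 2 = 4 * Fintype.card G + 3 := ⟨4 * Fintype.card G + 1, rfl⟩
  obtain ⟨a₀, a, b, hA, hcop, hirr, -, hpair, hN', hreal⟩ := exists_parameters k hN
  obtain ⟨hm, hd⟩ := kPolyAdd_monic k a₀ a b
  have hcard : Fintype.card (((kPolyAdd k a₀ a b).map (Int.castRingHom ℚ)).rootSet Qb) =
      4 * Fintype.card G + 3 := by
    rw [card_rootSet_eq_natDegree hirr.separable (IsAlgClosed.splits _), hm.natDegree_map, hd, hk]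
  have : Nontrivial (((kPolyAdd k a₀ a b).map (Int.castRingHom ℚ)).rootSet Qb) :=
    Fintype.one_lt_card_iff_nontrivial.1 (by omega)
  obtain ⟨f, hf, hsign⟩ := exists_even_embedding G hcard
  have hle : f.range ≤ alternatingGroup _ := by
    rintro _ ⟨g, rfl⟩
    exact Equiv.Perm.mem_alternatingGroup.2 (hsign g)
  obtain ⟨F, L, i1, i2, i3, i4, i5, h1, ⟨e⟩, h3, h4, h5, h6, h7, h8⟩ :=
    exists_fields_of_even hm hirr (mildReductions_kPolyAdd hA hcop hpair)
      (card_realRoots hirr hreal) f.range hle
  refine ⟨F, L, i1, i2, i3, i4, i5, h1, ⟨e.trans (MonoidHom.ofInjective hf).symm⟩, ?_, h4, h5, h6,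
    h7, h8 N (inertia_eq_one_of_coprime hA (mildReductions_kPolyAdd hA hcop hpair) hN')⟩
  rw [h3]
  refine f.range.one_lt_index_of_ne_top fun htop => ?_
  have h := alternatingGroup.index_eq_two
    (α := ((kPolyAdd k a₀ a b).map (Int.castRingHom ℚ)).rootSet Qb)
  have hle' := hle
  rw [htop, top_le_iff] at hle'
  rw [hle', Subgroup.index_top] at h
  exact absurd h (by norm_num)

/-- **Class groups of totally real fields.** -/
theorem exists_totally_real_classGroup_quotient (A : Type*) [CommGroup A] [Finite A] {N : ℕ}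
    (hN : 0 < N) :
    ∃ (F : Type) (_ : Field F) (_ : NumberField F), IsTotallyReal F ∧ 1 < Module.finrank ℚ F ∧
      IsCoprime (discr F) (N : ℤ) ∧ ∃ f : ClassGroup (𝓞 F) →* A, Function.Surjective f := by
  obtain ⟨F, L, i1, i2, i3, i4, i5, h1, ⟨e⟩, h3, h4, -, h6, h7, h8⟩ :=
    exists_totally_real_unramified A hN
  obtain ⟨g, hg⟩ := Fermat.Agent.ClassFieldTower.exists_classGroup_surjective (K := F) (X := L)
    (fun x y => e.injective (by rw [map_mul, map_mul, mul_comm])) ⟨h7, h6⟩
  exact ⟨F, i1, i2, h4, h3, h8, e.toMonoidHom.comp g, e.surjective.comp hg⟩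

end FA.KedlayaDisc

end
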