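import Fermat.Agent.KedlayaDisc.Field
import Fermat.Agent.UchidaYamamura.Main

/-!
# Squarefree discriminants, and unramified extensions of totally real fields

The field of a root has squarefree discriminant prime to `N` and any given signature. When all
roots are real, complex conjugation fixes them, so the fixed field of a group of even permutations
is totally real and the splitting field is unramified over it at all places; for all even
permutations that field is real quadratic.
-/

set_option autoImplicit false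

noncomputable section

namespace FA.KedlayaDisc

open Polynomial NumberField Fermat.Agent Fermat.Agent.UnramifiedGalois
open scoped Polynomial

local notation "Qb" => AlgebraicClosure ℚ
local notation "GQ" => AlgebraicClosure ℚ ≃ₐ[ℚ] AlgebraicClosure ℚ

variable {k : ℕ} {a₀ b : ℤ} {a : Fin k → ℤ}

/-- A subfield of `Qb` fixed by every conjugate of complex conjugation is totally real. -/
theorem isTotallyReal_of_conj {L : Type*} [Field L] [NumberField L] (ι : L →ₐ[ℚ] Qb)
    (h : ∀ (g : GQ) (x : L), complexConjugation (g (ι x)) = g (ι x)) : IsTotallyReal L := by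
  refine ⟨fun w => InfinitePlace.isReal_iff.2 (ComplexEmbedding.isReal_iff.2
    (RingHom.ext fun x => ?_))⟩
  show starRingEnd ℂ (w.embedding.toRatAlgHom x) = w.embedding.toRatAlgHom x
  have hs : ((minpoly ℚ x).map (algebraMap ℚ Qb)).Splits := IsAlgClosed.splits _
  have hx : w.embedding.toRatAlgHom x ∈ (minpoly ℚ x).rootSet ℂ := Polynomial.mem_rootSet.2
    ⟨minpoly.ne_zero (Algebra.IsIntegral.isIntegral x), by
      rw [Polynomial.aeval_algHom_apply, minpoly.aeval, map_zero]⟩
  rw [← Polynomial.Splits.image_rootSet hs complexEmbedding] at hx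
  obtain ⟨z, hz, hz'⟩ := hx
  rw [← minpoly.algHom_eq ι ι.injective] at hz
  obtain ⟨g, hg⟩ := minpoly.exists_algEquiv_of_root'
    (Algebra.IsAlgebraic.isAlgebraic (ι x)) (Polynomial.mem_rootSet.1 hz).2
  rw [← hz', ← hg, ← complexEmbedding_complexConjugation, h]

/-- Complex conjugation fixes every root. -/
theorem rootsAction_conj_eq_one {f : ℤ[X]} (hmon : f.Monic)
    (hcard : f.natDegree ≤ (UchidaYamamura.realRoots f).card) :
    VanDerWaerden.rootsAction (L := Qb) f complexConjugation = 1 := by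
  refine Equiv.ext fun x => Subtype.ext ?_
  show complexConjugation (x : Qb) = (x : Qb)
  refine complexEmbedding.toRingHom.injective ?_
  show complexEmbedding _ = complexEmbedding _
  rw [complexEmbedding_complexConjugation]
  refine conj_eq_of_root hmon hcard ?_
  rw [eval_map, RingHom.ext_int (Int.castRingHom ℂ) (algebraMap ℤ ℂ), ← aeval_def,
    ← aeval_map_algebraMap ℚ, algebraMap_int_eq, aeval_algHom_apply,
    (Polynomial.mem_rootSet.1 x.2).2, map_zero]

/-- **Fields with squarefree discriminant and given signature.** -/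
theorem exists_field_signature {n N s : ℕ} (hn : 2 ≤ n) (hs : 2 * s ≤ n) (hN : 0 < N) :
    ∃ (f : ℤ[X]) (K : Type) (_ : Field K) (_ : NumberField K) (α : 𝓞 K),
      f.Monic ∧ f.natDegree = n ∧ Irreducible (f.map (Int.castRingHom ℚ)) ∧
      Nonempty ((f.map (Int.castRingHom ℚ)).Gal ≃* Equiv.Perm (Fin n)) ∧
      aeval α f = 0 ∧ Algebra.adjoin ℤ {α} = ⊤ ∧ Module.finrank ℚ K = n ∧
      InfinitePlace.nrRealPlaces K = n - 2 * s ∧ InfinitePlace.nrComplexPlaces K = s ∧
      Squarefree (discr K) ∧ IsCoprime (discr K) (N : ℤ) := by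
  obtain ⟨k, rfl⟩ : ∃ k, n = k + 2 := ⟨n - 2, by omega⟩
  obtain ⟨a₀, a, b, hA, hcop, hirr, hsq, hpair, hN', hlo, hhi⟩ :=
    exists_parameters_roots k hN (d := min (2 * s) (k + 1)) (min_le_right _ _)
  obtain ⟨hm, hd⟩ := kPolyAdd_monic k a₀ a b
  have hcard := card_realRoots_eq hirr hs hlo hhi
  have hgal := UchidaYamamura.nonempty_gal_mild hm hirr (mildReductions_kPolyAdd hA hcop hpair)
  rw [hd] at hgal
  obtain ⟨g, hg⟩ : ∃ g, g = kPolyAdd k a₀ a b := ⟨_, rfl⟩
  rw [← hg] at hm hd hirr hcard hgal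
  obtain ⟨x, hx⟩ := IsAlgClosed.exists_aeval_eq_zero Qb (g.map (Int.castRingHom ℚ))
    (degree_pos_of_irreducible hirr).ne'
  have hxg : aeval x g = 0 := by rwa [← aeval_map_algebraMap ℚ, algebraMap_int_eq]
  have hint : IsIntegral ℚ x := Algebra.IsIntegral.isIntegral x
  let K := IntermediateField.adjoin ℚ {x}
  let pb : PowerBasis ℚ K := IntermediateField.adjoin.powerBasis hint
  have : FiniteDimensional ℚ K := pb.finite
  have : NumberField K := { }
  have hgen : pb.gen = IntermediateField.AdjoinSimple.gen ℚ x := rfl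
  have hroot : aeval pb.gen g = 0 := by
    refine Subtype.ext ?_
    show (K.val.restrictScalars ℤ) _ = _
    rw [← aeval_algHom_apply (K.val.restrictScalars ℤ), hgen]
    simpa using hxg
  let θ : 𝓞 K := ⟨pb.gen, g, hm, by rw [← aeval_def]; exact hroot⟩
  have hmin : minpoly ℚ pb.gen = g.map (Int.castRingHom ℚ) :=
    (minpoly.algHom_eq K.val Subtype.val_injective pb.gen).symm.trans
      (minpoly.eq_of_irreducible_of_monic hirr hx (hm.map _)).symm
  have hsqD : Squarefree (∏ i, form k a₀ a b i) := Finset.squarefree_prod_of_pairwise_isCoprime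
    (fun i _ j _ hij => (hpair hij).isRelPrime) fun i _ => hsq i
  obtain ⟨htop, hdisc⟩ := adjoin_eq_top_of_squarefree pb θ rfl
    (abs_discr_powerBasis hA pb (hg ▸ hmin)) hsqD
  have hrank : Module.finrank ℚ K = k + 2 := by
    rw [pb.finrank, ← pb.natDegree_minpoly, hmin, hm.natDegree_map, hd]
  have hreal := nrRealPlaces_eq_card_realRoots hm pb hmin
  refine ⟨g, K, inferInstance, inferInstance, θ, hm, hd, hirr, hgal, ?_, htop, hrank, ?_, ?_, ?_,
    ?_⟩
  · exact RingOfIntegers.ext
      ((aeval_algebraMap_apply K θ g).symm.trans (hroot.trans (map_zero _).symm))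
  · omega
  · have := InfinitePlace.card_add_two_mul_card_eq_rank K
    omega
  · rw [← Int.squarefree_natAbs, hdisc, Int.squarefree_natAbs]
    exact hsqD
  · rw [Int.isCoprime_iff_nat_coprime, hdisc, ← Int.isCoprime_iff_nat_coprime]
    exact IsCoprime.prod_left fun i _ => hN' i

/-- **Totally real fields with squarefree discriminant.** -/
theorem exists_totally_real_field {n N : ℕ} (hn : 2 ≤ n) (hN : 0 < N) :
    ∃ (f : ℤ[X]) (K : Type) (_ : Field K) (_ : NumberField K) (α : 𝓞 K),
      f.Monic ∧ f.natDegree = n ∧ Irreducible (f.map (Int.castRingHom ℚ)) ∧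
      Nonempty ((f.map (Int.castRingHom ℚ)).Gal ≃* Equiv.Perm (Fin n)) ∧
      aeval α f = 0 ∧ Algebra.adjoin ℤ {α} = ⊤ ∧ Module.finrank ℚ K = n ∧ IsTotallyReal K ∧
      Squarefree (discr K) ∧ IsCoprime (discr K) (N : ℤ) := by
  obtain ⟨f, K, i1, i2, α, h1, h2, h3, h4, h5, h6, h7, -, h8, h9, h10⟩ :=
    exists_field_signature (s := 0) hn (Nat.zero_le n) hN
  exact ⟨f, K, i1, i2, α, h1, h2, h3, h4, h5, h6, h7, nrComplexPlaces_eq_zero_iff.1 h8, h9, h10⟩

/-- **The unramified extensions**: a group of even permutations of the roots is the Galois group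
of an extension of totally real fields unramified at every place. -/
theorem exists_fields_of_even {f : ℤ[X]} (hm : f.Monic)
    (hirr : Irreducible (f.map (Int.castRingHom ℚ))) (hmild : UchidaYamamura.MildReductions f)
    (hcardR : f.natDegree ≤ (UchidaYamamura.realRoots f).card)
    [DecidableEq ((f.map (Int.castRingHom ℚ)).rootSet Qb)]
    (H : Subgroup (Equiv.Perm ((f.map (Int.castRingHom ℚ)).rootSet Qb)))
    (hH : H ≤ alternatingGroup _) :
    ∃ (F L : Type) (_ : Field F) (_ : NumberField F) (_ : Field L) (_ : NumberField L)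
      (_ : Algebra F L), IsGalois F L ∧ Nonempty ((L ≃ₐ[F] L) ≃* H) ∧
        Module.finrank ℚ F = H.index ∧ IsTotallyReal F ∧ IsTotallyReal L ∧
        IsUnramifiedAtInfinitePlaces F L ∧
        (∀ Q : Ideal (𝓞 L), Q.IsPrime → Q ≠ ⊥ → Q.ramificationIdx (𝓞 F) = 1) ∧
        ∀ N : ℕ, (∀ q : ℕ, q.Prime → q ∣ N → ∀ A : ValuationSubring Qb, A.LiesOverPrime q →
          ∀ σ ∈ A.inertiaSubgroupIn ℚ, VanDerWaerden.rootsAction f σ = 1) →
            IsCoprime (discr F) (N : ℤ) := by
  set ψ := VanDerWaerden.rootsAction (L := Qb) f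
  obtain ⟨R, hRdef⟩ : ∃ R, R = IntermediateField.adjoin ℚ
      ((f.map (Int.castRingHom ℚ)).rootSet Qb) := ⟨_, rfl⟩
  have : FiniteDimensional ℚ R := by
    rw [hRdef]
    exact IntermediateField.finiteDimensional_adjoin fun x _ => Algebra.IsIntegral.isIntegral x
  have hRψ : ∀ σ ∈ R.fixingSubgroup, ψ σ = 1 := fun σ hσ =>
    Equiv.ext fun x => Subtype.ext ((IntermediateField.mem_fixingSubgroup_iff _ _).1 hσ x
      (hRdef ▸ IntermediateField.subset_adjoin ℚ _ x.2))
  have hψR : ∀ σ, ψ σ = 1 → σ ∈ R.fixingSubgroup := fun σ hσ => by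
    rw [hRdef, IntermediateField.mem_fixingSubgroup_iff]
    intro y hy
    induction hy using IntermediateField.adjoin_induction with
    | mem x hx => exact congrArg (fun π : Equiv.Perm _ =>
        ((π ⟨x, hx⟩ : (f.map (Int.castRingHom ℚ)).rootSet Qb) : Qb)) hσ
    | algebraMap q => exact σ.commutes q
    | add x y _ _ hx hy => rw [map_add, hx, hy]
    | inv x _ hx => rw [map_inv₀, hx]
    | mul x y _ _ hx hy => rw [map_mul, hx, hy]
  have hopen : IsOpen (ψ.ker : Set GQ) := Subgroup.isOpen_mono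
    (fun σ hσ => MonoidHom.mem_ker.2 (hRψ σ hσ)) (IntermediateField.fixingSubgroup_isOpen R)
  have hconj : ∀ g : GQ, ψ (g⁻¹ * complexConjugation * g) = 1 := fun g => by
    rw [map_mul, map_mul, map_inv, rootsAction_conj_eq_one hm hcardR, mul_one, inv_mul_cancel]
  obtain ⟨F, i1, M, i2, hfix, hgal, he, hidx, hM, hfin⟩ :=
    exists_subfields_of_inertia ψ (UchidaYamamura.rootsAction_surjective hm hirr hmild) hopen H
      (fun q _ A _ σ hσ hσH => by
        rcases UchidaYamamura.inertia_cases hm hmild hσ with h | ⟨h, -⟩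
        · exact h
        · exact absurd ((Equiv.Perm.mem_alternatingGroup.1 (hH hσH)).symm.trans h.sign_eq)
            (by decide))
  have hfixed : ∀ (g : GQ) (y : Qb), (g⁻¹ * complexConjugation * g) y = y →
      complexConjugation (g y) = g y := fun g y h => by
    have h' := congrArg g h
    rwa [AlgEquiv.mul_apply, AlgEquiv.mul_apply, ← AlgEquiv.mul_apply g g⁻¹, mul_inv_cancel,
      AlgEquiv.one_apply] at h'
  have hLreal : IsTotallyReal M := isTotallyReal_of_conj (M.val.restrictScalars ℚ) fun g x =>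
    hfixed g x (hM _ (hconj g) _ x.2)
  have hFreal : IsTotallyReal F := isTotallyReal_of_conj F.val fun g x =>
    hfixed g x ((IntermediateField.mem_fixingSubgroup_iff _ _).1
      (by rw [hfix, Subgroup.mem_comap, hconj g]; exact one_mem _) _ x.2)
  refine ⟨F, M, inferInstance, i1, inferInstance, i2, inferInstance, hgal, he, hidx, hFreal,
    hLreal, ⟨fun w => InfinitePlace.isUnramified_iff.2 (Or.inl (IsTotallyReal.isReal w))⟩, hfin,
    fun N hN' => ?_⟩
  have : NumberField R := { }
  have : IsGalois ℚ Qb := FA.Local.isGalois_qbar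
  have : IsGalois ℚ R := by
    subst hRdef
    have : (f.map (Int.castRingHom ℚ)).IsSplittingField ℚ
        (IntermediateField.adjoin ℚ ((f.map (Int.castRingHom ℚ)).rootSet Qb)) :=
      IntermediateField.adjoin_rootSet_isSplittingField (IsAlgClosed.splits _)
    exact IsGalois.of_separable_splitting_field hirr.separable
  have hFR : F ≤ R := by
    rw [← InfiniteGalois.fixedField_fixingSubgroup R,
      ← InfiniteGalois.fixedField_fixingSubgroup F]
    refine IntermediateField.fixedField_antitone fun σ hσ => ?_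
    rw [hfix, Subgroup.mem_comap, hRψ σ hσ]
    exact one_mem H
  let _ : Algebra F R := (IntermediateField.inclusion hFR).toRingHom.toAlgebra
  refine IsCoprime.of_isCoprime_of_dvd_left ?_ (NumberField.discr_dvd_discr F R)
  rw [Int.isCoprime_iff_nat_coprime, Int.natAbs_natCast]
  refine Nat.coprime_of_dvd fun s hs hsd hsN => ?_
  refine UchidaYamamura.not_dvd_discr_of_inertia_le R hs (fun A hAs σ hσ => hψR σ ?_)
    (Int.natCast_dvd.2 hsd)
  exact hN' s hs hsN A hAs σ hσ

/-- Inertia fixes the roots over the primes of a number prime to all forms. -/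
theorem inertia_eq_one_of_coprime (hA : Adm k a₀ a)
    (hmild : UchidaYamamura.MildReductions (kPolyAdd k a₀ a b)) {N : ℕ}
    (hN : ∀ i, IsCoprime (form k a₀ a b i) (N : ℤ)) (q : ℕ) (hq : q.Prime) (hqN : q ∣ N)
    (A : ValuationSubring Qb) (hAq : A.LiesOverPrime q) (σ : GQ)
    (hσ : σ ∈ A.inertiaSubgroupIn ℚ) :
    VanDerWaerden.rootsAction (kPolyAdd k a₀ a b) σ = 1 :=
  inertia_eq_one_of_not_dvd hA hmild hq (fun i hi => (Nat.prime_iff_prime_int.1 hq).not_isUnit
    ((hN i).isUnit_of_dvd' hi (Int.natCast_dvd_natCast.2 hqN))) hAq hσ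

/-- **Real quadratic fields with an unramified `Aₙ`-extension.** -/
theorem exists_real_quadratic_unramified_alternating {n N : ℕ} (h3 : 3 ≤ n) (hN : 0 < N) :
    ∃ (F L : Type) (_ : Field F) (_ : NumberField F) (_ : Field L) (_ : NumberField L)
      (_ : Algebra F L), IsGalois F L ∧ Nonempty ((L ≃ₐ[F] L) ≃* alternatingGroup (Fin n)) ∧
        Module.finrank ℚ F = 2 ∧ IsTotallyReal F ∧ IsTotallyReal L ∧
        IsUnramifiedAtInfinitePlaces F L ∧
        (∀ Q : Ideal (𝓞 L), Q.IsPrime → Q ≠ ⊥ → Q.ramificationIdx (𝓞 F) = 1) ∧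
        IsCoprime (discr F) (N : ℤ) := by
  classical
  obtain ⟨k, rfl⟩ : ∃ k, n = k + 2 := ⟨n - 2, by omega⟩
  obtain ⟨a₀, a, b, hA, hcop, hirr, -, hpair, hN', hreal⟩ := exists_parameters k hN
  obtain ⟨hm, hd⟩ := kPolyAdd_monic k a₀ a b
  set fQ := (kPolyAdd k a₀ a b).map (Int.castRingHom ℚ)
  have hcard : Fintype.card (fQ.rootSet Qb) = k + 2 := by
    rw [card_rootSet_eq_natDegree hirr.separable (IsAlgClosed.splits _), hm.natDegree_map, hd]
  have : Nontrivial (fQ.rootSet Qb) := Fintype.one_lt_card_iff_nontrivial.1 (by omega)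
  obtain ⟨F, L, i1, i2, i3, i4, i5, h1, ⟨e⟩, h3, h4, h5, h6, h7, h8⟩ :=
    exists_fields_of_even hm hirr (mildReductions_kPolyAdd hA hcop hpair)
      (card_realRoots hirr hreal) (alternatingGroup (fQ.rootSet Qb)) le_rfl
  exact ⟨F, L, i1, i2, i3, i4, i5, h1,
    ⟨e.trans (Fintype.equivFinOfCardEq hcard).altCongrHom⟩,
    h3.trans alternatingGroup.index_eq_two, h4, h5, h6, h7,
    h8 N (inertia_eq_one_of_coprime hA (mildReductions_kPolyAdd hA hcop hpair) hN')⟩

end FA.KedlayaDisc

end
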