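import Mathlib.Analysis.Calculus.Deriv.MeanValue
import Mathlib.Analysis.Calculus.Deriv.Polynomial
import Mathlib.Topology.Algebra.Polynomial
import Mathlib.Tactic

/-!
# A primitive with geometrically spaced critical points

If the critical points `e 0 < ⋯ < e k` grow fast enough, the absolute values of the primitive at
them increase strictly. For `v` of the appropriate sign with `|v|` between the values at `e i` and
`e (i + 1)` its sum with `v` has a root in each later gap, and at most one more.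
-/

set_option autoImplicit false

noncomputable section

open Polynomial Finset

namespace FA.KedlayaDisc

/-- The hypotheses. -/
structure Spaced (k : ℕ) (e : ℕ → ℝ) (Q : ℝ[X]) : Prop where
  pos : 0 < e 0
  grow : ∀ i, 3 * 8 ^ (k + 2) * e i ≤ e (i + 1)
  eval_zero : Q.eval 0 = 0
  deriv : ∀ s, Q.derivative.eval s = ((k : ℝ) + 2) * ∏ l ∈ range (k + 1), (s - e l)

variable {k : ℕ} {e : ℕ → ℝ} {Q : ℝ[X]}

/-- The bound at `e i`. -/
def bound (k : ℕ) (e : ℕ → ℝ) (i : ℕ) : ℝ :=
  ((k : ℝ) + 2) * e i * ∏ l ∈ range (k + 1), e (max i l)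

namespace Spaced

theorem pos_at (h : Spaced k e Q) (i : ℕ) : 0 < e i := by
  induction i with
  | zero => exact h.pos
  | succ i hi => exact lt_of_lt_of_le (by positivity) (h.grow i)

theorem eight_mul_le (h : Spaced k e Q) (i : ℕ) : 8 * e i ≤ e (i + 1) := by
  refine le_trans (mul_le_mul_of_nonneg_right ?_ (h.pos_at i).le) (h.grow i)
  calc (8 : ℝ) = 1 * 8 ^ 1 := by norm_num
    _ ≤ 3 * 8 ^ (k + 2) := mul_le_mul (by norm_num)
        (pow_le_pow_right₀ (by norm_num) (by omega)) (by norm_num) (by norm_num)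

theorem monotone (h : Spaced k e Q) : Monotone e :=
  monotone_nat_of_le_succ fun i => by linarith [h.eight_mul_le i, h.pos_at i]

theorem bound_pos (h : Spaced k e Q) (i : ℕ) : 0 < bound k e i :=
  mul_pos (mul_pos (by positivity) (h.pos_at i)) (prod_pos fun l _ => h.pos_at _)

theorem exists_slope (h : Spaced k e Q) {x y : ℝ} (hxy : x < y) :
    ∃ c ∈ Set.Ioo x y, Q.eval y - Q.eval x =
      (y - x) * (((k : ℝ) + 2) * ∏ l ∈ range (k + 1), (c - e l)) := by
  obtain ⟨c, hc, hc'⟩ := exists_hasDerivAt_eq_slope (fun t => Q.eval t)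
    (fun t => Q.derivative.eval t)
    hxy Q.continuous.continuousOn fun t _ => Q.hasDerivAt t
  refine ⟨c, hc, ?_⟩
  rw [← h.deriv, hc', mul_div_cancel₀ _ (sub_ne_zero.2 hxy.ne')]

theorem abs_eval_le (h : Spaced k e Q) (i : ℕ) : |Q.eval (e i)| ≤ bound k e i := by
  obtain ⟨c, ⟨hc0, hci⟩, hc⟩ := h.exists_slope (h.pos_at i)
  rw [h.eval_zero, sub_zero, sub_zero] at hc
  rw [hc, abs_mul, abs_mul, abs_of_pos (h.pos_at i),
    abs_of_pos (by positivity : (0 : ℝ) < (k : ℝ) + 2), abs_prod, bound, ← mul_assoc,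
    mul_comm (e i)]
  refine mul_le_mul_of_nonneg_left (prod_le_prod (fun l _ => abs_nonneg _) fun l _ => ?_)
    (mul_nonneg (by positivity) (h.pos_at i).le)
  have h1 := h.monotone (le_max_left i l)
  have h2 := h.monotone (le_max_right i l)
  exact abs_le.2 ⟨by linarith, by linarith [h.pos_at l]⟩

theorem increasing (h : Spaced k e Q) {i : ℕ} {x y : ℝ} (hx : e i ≤ x) (hxy : x < y)
    (hy : y ≤ e (i + 1)) : ∃ c ∈ Set.Ioo x y, (-1) ^ (k - i) * (Q.eval y - Q.eval x) =
      (y - x) * (((k : ℝ) + 2) * ∏ l ∈ range (k + 1), |c - e l|) := by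
  obtain ⟨c, hc, hc'⟩ := h.exists_slope hxy
  refine ⟨c, hc, ?_⟩
  have hs : ((-1 : ℝ) ^ (k - i)) = ∏ l ∈ range (k + 1), (if i < l then (-1 : ℝ) else 1) := by
    rw [prod_ite, prod_const, prod_const_one, mul_one]
    congr 1
    rw [show (range (k + 1)).filter (fun l => i < l) = Ioc i k by
      ext l; simp only [mem_filter, mem_range, mem_Ioc]; omega, Nat.card_Ioc]
  rw [hc', hs, mul_left_comm, mul_left_comm (∏ l ∈ range (k + 1), (if i < l then (-1 : ℝ) else 1)),
    ← prod_mul_distrib]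
  refine congrArg _ (congrArg _ (prod_congr rfl fun l hl => ?_))
  split_ifs with hil
  · have := h.monotone (Nat.succ_le_of_lt hil)
    rw [abs_of_nonpos (by linarith [hc.2]), neg_one_mul]
  · have := h.monotone (not_lt.1 hil)
    rw [abs_of_nonneg (by linarith [hc.1]), one_mul]

theorem gap_le (h : Spaced k e Q) (i : ℕ) :
    3 * bound k e i ≤ (-1) ^ (k - i) * (Q.eval (e (i + 1)) - Q.eval (e i)) := by
  have h8 := h.eight_mul_le i
  have h0 := h.pos_at i
  have h1 := h.pos_at (i + 1)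
  obtain ⟨c₁, -, e₁⟩ := h.increasing le_rfl (by linarith : e i < e (i + 1) / 4) (by linarith)
  obtain ⟨c₂, hc₂, e₂⟩ := h.increasing (by linarith : e i ≤ e (i + 1) / 4)
    (by linarith : e (i + 1) / 4 < e (i + 1) / 2) (by linarith)
  obtain ⟨c₃, -, e₃⟩ := h.increasing (by linarith : e i ≤ e (i + 1) / 2)
    (by linarith : e (i + 1) / 2 < e (i + 1)) le_rfl
  have p₁ : 0 ≤ (-1 : ℝ) ^ (k - i) * (Q.eval (e (i + 1) / 4) - Q.eval (e i)) := by
    rw [e₁]; exact mul_nonneg (by linarith) (mul_nonneg (by positivity)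
      (prod_nonneg fun l _ => abs_nonneg _))
  have p₃ : 0 ≤ (-1 : ℝ) ^ (k - i) * (Q.eval (e (i + 1)) - Q.eval (e (i + 1) / 2)) := by
    rw [e₃]; exact mul_nonneg (by linarith) (mul_nonneg (by positivity)
      (prod_nonneg fun l _ => abs_nonneg _))
  have p₂ : 3 * bound k e i ≤
      (-1) ^ (k - i) * (Q.eval (e (i + 1) / 2) - Q.eval (e (i + 1) / 4)) := by
    rw [e₂, bound]
    have hf : ∀ l ∈ range (k + 1), e (max i l) / 8 ≤ |c₂ - e l| := fun l _ => by
      rcases le_or_gt l i with hl | hl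
      · have := h.monotone hl
        rw [max_eq_left hl]
        exact le_trans (by linarith [hc₂.1]) (le_abs_self _)
      · have := h.monotone (Nat.succ_le_of_lt hl)
        rw [max_eq_right hl.le]
        exact le_trans (by linarith [hc₂.2, h.pos_at l]) (neg_le_abs _)
    have hP := prod_le_prod (fun l _ => (div_pos (h.pos_at _) (by norm_num : (0:ℝ) < 8)).le) hf
    rw [prod_div_distrib, prod_const, card_range] at hP
    have hP0 : (0 : ℝ) ≤ ∏ l ∈ range (k + 1), e (max i l) := prod_nonneg fun l _ => (h.pos_at _).le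
    calc 3 * (((k : ℝ) + 2) * e i * ∏ l ∈ range (k + 1), e (max i l))
        ≤ (3 * 8 ^ (k + 2) * e i / 4) *
            (((k : ℝ) + 2) * ((∏ l ∈ range (k + 1), e (max i l)) / 8 ^ (k + 1))) := by
          rw [pow_succ (8 : ℝ) (k + 1)]
          have : 0 ≤ ((k : ℝ) + 2) * e i * ∏ l ∈ range (k + 1), e (max i l) :=
            mul_nonneg (mul_nonneg (by positivity) h0.le) hP0
          field_simp
          linarith
      _ ≤ _ := mul_le_mul (by linarith [h.grow i]) (mul_le_mul_of_nonneg_left hP (by positivity))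
          (mul_nonneg (by positivity) (div_nonneg hP0 (by positivity))) (by linarith)
  linarith

theorem two_bound_le (h : Spaced k e Q) (i : ℕ) :
    2 * bound k e i ≤ (-1) ^ (k - i) * Q.eval (e (i + 1)) := by
  have h1 := h.gap_le i
  have h2 := h.abs_eval_le i
  have h3 : |(-1 : ℝ) ^ (k - i) * Q.eval (e i)| = |Q.eval (e i)| := by
    rw [abs_mul, abs_pow, abs_neg, abs_one, one_pow, one_mul]
  have h4 := neg_le_abs ((-1 : ℝ) ^ (k - i) * Q.eval (e i))
  rw [mul_sub] at h1
  linarith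

theorem strictMono_abs (h : Spaced k e Q) : StrictMono fun i => |Q.eval (e i)| := by
  refine strictMono_nat_of_lt_succ fun j => ?_
  have h1 := h.two_bound_le j
  have h2 := h.abs_eval_le j
  have h3 := le_abs_self ((-1 : ℝ) ^ (k - j) * Q.eval (e (j + 1)))
  rw [abs_mul, abs_pow, abs_neg, abs_one, one_pow, one_mul] at h3
  linarith [h.bound_pos j]

theorem abs_neg_one_pow_mul (m : ℕ) (x : ℝ) : |(-1 : ℝ) ^ m * x| = |x| := by
  rw [abs_mul, abs_pow, abs_neg, abs_one, one_pow, one_mul]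

/-- The signs at the critical points from `i` on. -/
theorem sign_of_le (h : Spaced k e Q) {v : ℝ} {i : ℕ}
    (hv1 : |Q.eval (e i)| < (-1) ^ (k + 1 - i) * v)
    (hv2 : (-1) ^ (k + 1 - i) * v < |Q.eval (e (i + 1))|) {l : ℕ} (hl : i ≤ l) :
    0 < (-1 : ℝ) ^ (k + 1 - l) * (Q.eval (e l) + v) := by
  rw [mul_add]
  rcases eq_or_lt_of_le hl with rfl | hlt
  · have := neg_le_abs ((-1 : ℝ) ^ (k + 1 - i) * Q.eval (e i))
    rw [abs_neg_one_pow_mul] at this
    linarith
  · obtain ⟨j, rfl⟩ : ∃ j, l = j + 1 := ⟨l - 1, by omega⟩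
    rw [Nat.add_sub_add_right]
    have hv : |(-1 : ℝ) ^ (k - j) * v| = (-1) ^ (k + 1 - i) * v := by
      rw [abs_neg_one_pow_mul, ← abs_neg_one_pow_mul (k + 1 - i) v,
        abs_of_pos ((abs_nonneg _).trans_lt hv1)]
    have h1 : (0 : ℝ) ≤ (-1) ^ (k - j) * Q.eval (e (j + 1)) :=
      le_trans (by linarith [h.bound_pos j]) (h.two_bound_le j)
    have h2 : |Q.eval (e (i + 1))| ≤ |Q.eval (e (j + 1))| :=
      h.strictMono_abs.monotone (Nat.succ_le_of_lt hlt)
    rw [← abs_neg_one_pow_mul (k - j) (Q.eval (e (j + 1))), abs_of_nonneg h1] at h2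
    linarith [neg_le_abs ((-1 : ℝ) ^ (k - j) * v)]

/-- **The roots.** -/
theorem exists_root (h : Spaced k e Q) {v : ℝ} {i : ℕ}
    (hv1 : |Q.eval (e i)| < (-1) ^ (k + 1 - i) * v)
    (hv2 : (-1) ^ (k + 1 - i) * v < |Q.eval (e (i + 1))|) {l : ℕ} (hil : i ≤ l) (hl : l ≤ k) :
    ∃ ξ ∈ Set.Ioo (e l) (e (l + 1)), Q.eval ξ + v = 0 := by
  have ha := h.sign_of_le hv1 hv2 hil
  have hb := h.sign_of_le hv1 hv2 (hil.trans (Nat.le_succ l))
  rw [Nat.add_sub_add_right] at hb
  rw [show k + 1 - l = k - l + 1 by omega, pow_succ, mul_neg_one, neg_mul] at ha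
  have hlt : e l < e (l + 1) := by linarith [h.eight_mul_le l, h.pos_at l]
  obtain ⟨ξ, hξ, h0⟩ := intermediate_value_Ioo hlt.le
    (f := fun x => (-1 : ℝ) ^ (k - l) * (Q.eval x + v))
    (continuous_const.mul (Q.continuous.add continuous_const)).continuousOn
    (show (0 : ℝ) ∈ Set.Ioo _ _ from ⟨by linarith, hb⟩)
  exact ⟨ξ, hξ, (mul_eq_zero.1 h0).resolve_left (pow_ne_zero _ (by norm_num))⟩

/-- `Q` takes no value twice unless a critical point lies between. -/
theorem eval_ne (h : Spaced k e Q) {x y : ℝ} (hxy : x < y)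
    (hno : ∀ l ≤ k, e l ≤ x ∨ y ≤ e l) : Q.eval x ≠ Q.eval y := by
  intro heq
  obtain ⟨c, hc, h'⟩ := h.exists_slope hxy
  rw [heq, sub_self, eq_comm, mul_eq_zero, sub_eq_zero, mul_eq_zero, prod_eq_zero_iff] at h'
  rcases h' with h' | h' | ⟨l, hl, hl'⟩
  · exact hxy.ne' h'
  · linarith [Nat.cast_nonneg (α := ℝ) k]
  · rcases hno l (Nat.le_of_lt_succ (mem_range.1 hl)) with h1 | h1 <;>
      linarith [hc.1, hc.2, sub_eq_zero.1 hl']

/-- No root in an earlier gap. -/
theorem ne_zero_of_mem (h : Spaced k e Q) {v : ℝ} {i : ℕ}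
    (hv1 : |Q.eval (e i)| < (-1) ^ (k + 1 - i) * v) {j : ℕ} (hj : j < i) {x : ℝ}
    (hx : x ∈ Set.Icc (e j) (e (j + 1))) : Q.eval x + v ≠ 0 := by
  have hpos : ∀ l ≤ i, 0 < (-1 : ℝ) ^ (k + 1 - i) * (Q.eval (e l) + v) := fun l hl => by
    have h1 : |Q.eval (e l)| ≤ |Q.eval (e i)| := h.strictMono_abs.monotone hl
    have h2 := neg_le_abs ((-1 : ℝ) ^ (k + 1 - i) * Q.eval (e l))
    rw [abs_neg_one_pow_mul] at h2
    rw [mul_add]
    linarith
  intro h0
  rcases eq_or_lt_of_le hx.1 with rfl | h1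
  · exact absurd (hpos j hj.le) (by rw [h0, mul_zero]; exact lt_irrefl 0)
  rcases eq_or_lt_of_le hx.2 with rfl | h2
  · exact absurd (hpos (j + 1) hj) (by rw [h0, mul_zero]; exact lt_irrefl 0)
  obtain ⟨c₁, -, e₁⟩ := h.increasing le_rfl h1 h2.le
  obtain ⟨c₂, -, e₂⟩ := h.increasing h1.le h2 le_rfl
  have p₁ : 0 ≤ (-1 : ℝ) ^ (k - j) * (Q.eval x - Q.eval (e j)) := by
    rw [e₁]; exact mul_nonneg (by linarith) (mul_nonneg (by positivity)
      (prod_nonneg fun l _ => abs_nonneg _))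
  have p₂ : 0 ≤ (-1 : ℝ) ^ (k - j) * (Q.eval (e (j + 1)) - Q.eval x) := by
    rw [e₂]; exact mul_nonneg (by linarith) (mul_nonneg (by positivity)
      (prod_nonneg fun l _ => abs_nonneg _))
  have q₁ := hpos j hj.le
  have q₂ := hpos (j + 1) hj
  rw [show Q.eval x = -v by linarith] at p₁ p₂
  rcases neg_one_pow_eq_or ℝ (k - j) with s | s <;>
    rcases neg_one_pow_eq_or ℝ (k + 1 - i) with t | t
    <;> rw [s] at p₁ p₂ <;> rw [t] at q₁ q₂ <;> linarith

/-- **The number of roots**, up to one. -/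
theorem card_roots_bounds (h : Spaced k e Q) {v : ℝ} {i : ℕ} (hi : i ≤ k + 1)
    (hv1 : |Q.eval (e i)| < (-1) ^ (k + 1 - i) * v)
    (hv2 : (-1) ^ (k + 1 - i) * v < |Q.eval (e (i + 1))|) (Z : Finset ℝ)
    (hZ : ∀ x, x ∈ Z ↔ Q.eval x + v = 0) : k + 1 - i ≤ Z.card ∧ Z.card ≤ k + 2 - i := by
  classical
  refine ⟨?_, ?_⟩
  · choose ξ hξ hξ0 using fun l (hl : l ∈ Icc i k) =>
      h.exists_root hv1 hv2 (mem_Icc.1 hl).1 (mem_Icc.1 hl).2
    refine le_trans (le_of_eq (Nat.card_Icc i k).symm) ?_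
    rw [← card_attach]
    refine card_le_card_of_injOn (fun l => ξ l.1 l.2) (fun l _ => ?_) fun l _ m _ hlm => ?_
    · exact mem_coe.2 ((hZ _).2 (hξ0 l.1 l.2))
    · by_contra hne
      have hlm' : ξ l.1 l.2 = ξ m.1 m.2 := hlm
      rcases lt_or_gt_of_ne (fun e => hne (Subtype.ext e)) with h' | h'
      · exact absurd hlm' (((hξ _ _).2.trans_le
          (h.monotone (Nat.succ_le_of_lt h'))).trans (hξ _ _).1).ne
      · exact absurd hlm' (((hξ _ _).2.trans_le
          (h.monotone (Nat.succ_le_of_lt h'))).trans (hξ _ _).1).ne'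
  · obtain ⟨g, hg⟩ : ∃ g : ℝ → ℕ, ∀ x, g x = ((range (k + 1)).filter fun l => e l < x).card :=
      ⟨_, fun _ => rfl⟩
    have hiff : ∀ x, ∀ l ≤ k, (l < g x ↔ e l < x) := by
      intro x l hl
      refine ⟨fun hlt => ?_, fun hlt => ?_⟩
      · by_contra hn
        have hsub : (range (k + 1)).filter (fun m => e m < x) ⊆ range l := fun m hm => by
          rw [mem_filter] at hm
          exact mem_range.2 (not_le.1 fun hlm => hn ((h.monotone hlm).trans_lt hm.2))
        have := card_le_card hsub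
        rw [← hg, card_range] at this
        omega
      · have hsub : range (l + 1) ⊆ (range (k + 1)).filter (fun m => e m < x) := fun m hm => by
          rw [mem_range] at hm
          exact mem_filter.2 ⟨mem_range.2 (by omega),
            (h.monotone (Nat.lt_succ_iff.1 hm)).trans_lt hlt⟩
        have := card_le_card hsub
        rw [← hg, card_range] at this
        omega
    have hcard : (insert 0 (Icc (i + 1) (k + 1))).card ≤ k + 2 - i :=
      (card_insert_le _ _).trans (by rw [Nat.card_Icc]; omega)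
    refine (card_le_card_of_injOn g (fun x hx => ?_) fun x hx y hy hxy => ?_).trans hcard
    · rw [mem_coe, hZ] at hx
      have hle : g x ≤ k + 1 := hg x ▸ (card_filter_le _ _).trans (card_range _).le
      rw [mem_coe, mem_insert, mem_Icc]
      by_contra hn
      obtain ⟨j, hj⟩ : ∃ j, g x = j + 1 := ⟨g x - 1, by omega⟩
      have h1 : e j < x := (hiff x j (by omega)).1 (by omega)
      rcases le_or_gt x (e (j + 1)) with h2 | h2
      · exact h.ne_zero_of_mem hv1 (by omega : j < i) ⟨h1.le, h2⟩ hx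
      rcases Nat.lt_or_ge j k with hjk | hjk
      · have := (hiff x (j + 1) hjk).2 h2
        omega
      obtain rfl : j = k := by omega
      obtain rfl : i = j + 1 := by omega
      rw [Nat.sub_self, pow_zero, one_mul] at hv1
      obtain ⟨c, hc, h'⟩ := h.exists_slope h2
      have hpos : 0 < (x - e (j + 1)) * (((j : ℝ) + 2) * ∏ l ∈ range (j + 1), (c - e l)) :=
        mul_pos (by linarith) (mul_pos (by positivity) (prod_pos fun l hl => by
          linarith [h.monotone (mem_range.1 hl).le, hc.1]))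
      linarith [abs_nonneg (Q.eval (e (j + 1))), neg_le_abs (Q.eval (e (j + 1)))]
    · rw [mem_coe, hZ] at hx hy
      by_contra hne
      have key : ∀ u w : ℝ, u < w → g u = g w → ∀ l ≤ k, e l ≤ u ∨ w ≤ e l := fun u w _ huw l hl =>
        (le_or_gt (e l) u).imp id fun hlu => not_lt.1 fun hlw => by
          have h1 := (hiff w l hl).2 hlw
          rw [← huw] at h1
          exact absurd ((hiff u l hl).1 h1) (not_lt.2 hlu.le)
      rcases lt_or_gt_of_ne hne with h' | h'
      · exact h.eval_ne h' (key x y h' hxy) (by linarith)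
      · exact h.eval_ne h' (key y x h' hxy.symm) (by linarith)

end Spaced

end FA.KedlayaDisc

end
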