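import Mathlib.Analysis.PSeries
import Mathlib.RingTheory.Int.Basic
import Mathlib.Tactic

/-!
# Squarefree, pairwise coprime values of finitely many linear forms

Forms with values prime to `W`, where `W` contains all small primes and those of the resultants,
take squarefree pairwise coprime values once the range is long compared with the square root of
their size.
-/

set_option autoImplicit false

noncomputable section

open Finset

namespace FA.KedlayaDisc

variable {I : Type*} [Fintype I]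

theorem card_sq_dvd_le {A B : ℤ} {p : ℕ} (hp : p.Prime) (hA : ¬(p : ℤ) ∣ A) (S : ℕ) :
    ((range S).filter fun s : ℕ => ((p : ℤ) ^ 2) ∣ A * s + B).card ≤ S / p ^ 2 + 1 := by
  classical
  refine (card_le_card_of_injOn (fun s => s / p ^ 2) (fun s hs => ?_) fun s hs t ht hst => ?_).trans
    (card_range _).le
  · rw [mem_coe, mem_filter, mem_range] at hs
    exact mem_coe.2 (mem_range.2 (Nat.lt_succ_of_le (Nat.div_le_div_right hs.1.le)))
  · rw [mem_coe, mem_filter] at hs ht
    have hcop : IsCoprime ((p : ℤ) ^ 2) A :=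
      ((Nat.prime_iff_prime_int.1 hp).coprime_iff_not_dvd.2 hA).pow_left
    have hd : ((p : ℤ) ^ 2) ∣ (t : ℤ) - s := hcop.dvd_of_dvd_mul_left (by
      rw [show A * ((t : ℤ) - s) = (A * t + B) - (A * s + B) by ring]
      exact dvd_sub ht.2 hs.2)
    have hmod : s ≡ t [MOD p ^ 2] := Nat.modEq_iff_dvd.2 (by push_cast; exact hd)
    rw [← Nat.div_add_mod s (p ^ 2), ← Nat.div_add_mod t (p ^ 2), show s / p ^ 2 = t / p ^ 2 from
      hst,
      hmod]

/-- **Squarefree, pairwise coprime values.** -/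
theorem exists_squarefree_values (u w : I → ℤ) {W n R S : ℕ} (b₀ : ℤ) (hn : 0 < n) (hW0 : 0 < W)
    (hW : ∀ p : ℕ, p.Prime → p ≤ n → p ∣ W) (hu0 : ∀ i, u i ≠ 0)
    (hu : ∀ i, ∀ p : ℕ, p.Prime → ¬p ∣ W → ¬(p : ℤ) ∣ u i)
    (hcop : ∀ i, ∀ s : ℕ, IsCoprime (u i * (b₀ + W * s) + w i) (W : ℤ))
    (hres : ∀ i j, i ≠ j → ∀ p : ℕ, p.Prime → (p : ℤ) ∣ u i * w j - u j * w i → p ∣ W)
    (hbd : ∀ i, ∀ s < S, |u i * (b₀ + W * (s : ℕ)) + w i| < ((R : ℤ) + 1) ^ 2)
    (hS : Fintype.card I * (n * (R + 2) + S) < n * S) :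
    ∃ s < S, (∀ i, Squarefree (u i * (b₀ + W * (s : ℕ)) + w i)) ∧
      Pairwise fun i j => IsCoprime (u i * (b₀ + W * (s : ℕ)) + w i)
        (u j * (b₀ + W * (s : ℕ)) + w j) := by
  classical
  obtain ⟨F, hF⟩ : ∃ F : I → ℕ → ℤ, ∀ i s, F i s = u i * (b₀ + W * (s : ℕ)) + w i :=
    ⟨_, fun _ _ => rfl⟩
  simp only [← hF] at hcop hbd ⊢
  have hWF : ∀ {i s} {p : ℕ}, p.Prime → (p : ℤ) ∣ F i s → ¬p ∣ W := fun {i s p} hp h hpW =>
    (Nat.prime_iff_prime_int.1 hp).not_isUnit
      ((hcop i s).isUnit_of_dvd' h (Int.natCast_dvd_natCast.2 hpW))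
  have hbad : ∀ i, n * ((range S).filter fun s => ¬Squarefree (F i s)).card ≤ n * (R + 2) + S := by
    intro i
    let P := (Ioc n R).filter fun p => p.Prime ∧ ¬p ∣ W
    have hsub : ((range S).filter fun s => ¬Squarefree (F i s)) ⊆
        ((range S).filter fun s => F i s = 0) ∪
          P.biUnion fun p => (range S).filter fun s : ℕ =>
            ((p : ℤ) ^ 2) ∣ u i * W * s + (u i * b₀ + w i) := by
      intro s hs
      rw [mem_filter, mem_range] at hs
      by_cases h0 : F i s = 0
      · exact mem_union_left _ (mem_filter.2 ⟨mem_range.2 hs.1, h0⟩)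
      refine mem_union_right _ ?_
      have h := hs.2
      rw [← Int.squarefree_natAbs, Nat.squarefree_iff_prime_squarefree] at h
      push Not at h
      obtain ⟨p, hp, hpd⟩ := h
      have hpd' : ((p : ℤ) ^ 2) ∣ F i s := by
        rw [← Nat.cast_pow, Int.natCast_dvd, pow_two]; exact hpd
      have hpW : ¬p ∣ W := hWF hp ((dvd_pow_self _ two_ne_zero).trans hpd')
      refine mem_biUnion.2 ⟨p, mem_filter.2 ⟨mem_Ioc.2 ⟨?_, ?_⟩, hp, hpW⟩,
        mem_filter.2 ⟨mem_range.2 hs.1, ?_⟩⟩
      · by_contra hle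
        exact hpW (hW p hp (not_lt.1 hle))
      · by_contra hlt
        have h1 := Nat.le_of_dvd (Int.natAbs_pos.2 h0) hpd
        have h2 := hbd i s hs.1
        rw [Int.abs_eq_natAbs] at h2
        have h3 : (R + 1) * (R + 1) ≤ p * p := Nat.mul_le_mul (not_le.1 hlt) (not_le.1 hlt)
        have h4 : (((F i s).natAbs : ℕ) : ℤ) < (((R + 1) * (R + 1) : ℕ) : ℤ) := by
          rwa [Nat.cast_mul, Nat.cast_succ, ← pow_two]
        rw [Nat.cast_lt] at h4
        omega
      · rwa [show u i * W * s + (u i * b₀ + w i) = F i s by rw [hF]; ring]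
    have hzero : ((range S).filter fun s => F i s = 0).card ≤ 1 := card_le_one.2 fun s hs t ht => by
      rw [mem_filter, hF] at hs ht
      have : u i * W * ((s : ℤ) - t) = 0 := by linear_combination hs.2 - ht.2
      rcases mul_eq_zero.1 this with h | h
      · exact absurd h (mul_ne_zero (hu0 i) (by omega))
      · omega
    have hsum : n * ∑ p ∈ P, (S / p ^ 2) ≤ S := by
      have h1 : ((∑ p ∈ P, S / p ^ 2 : ℕ) : ℝ) ≤ (S : ℝ) * (n : ℝ)⁻¹ := by
        push_cast
        calc ∑ p ∈ P, ((S / p ^ 2 : ℕ) : ℝ) ≤ ∑ p ∈ Ioc n R, (S : ℝ) * ((p : ℝ) ^ 2)⁻¹ := by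
              refine (sum_le_sum fun p _ => ?_).trans (sum_le_sum_of_subset_of_nonneg
                (filter_subset _ _) fun p _ _ => by positivity)
              refine Nat.cast_div_le.trans (le_of_eq ?_)
              push_cast
              rw [div_eq_mul_inv]
          _ ≤ (S : ℝ) * (n : ℝ)⁻¹ := by
              rw [← mul_sum]
              refine mul_le_mul_of_nonneg_left ?_ (Nat.cast_nonneg S)
              rcases le_or_gt n R with h | h
              · exact (sum_Ioc_inv_sq_le_sub hn.ne' h).trans (sub_le_self _ (by positivity))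
              · rw [Ioc_eq_empty (by omega), sum_empty]; positivity
      have hn' : (0 : ℝ) < n := Nat.cast_pos.2 hn
      rw [← @Nat.cast_le ℝ, Nat.cast_mul]
      calc (n : ℝ) * _ ≤ (n : ℝ) * ((S : ℝ) * (n : ℝ)⁻¹) := mul_le_mul_of_nonneg_left h1 hn'.le
        _ = S := by field_simp
    have hP : P.card ≤ R :=
      (card_filter_le _ _).trans ((Nat.card_Ioc n R).le.trans (Nat.sub_le _ _))
    calc n * _ ≤ n * (1 + ∑ p ∈ P, (S / p ^ 2 + 1)) := Nat.mul_le_mul_left _
          ((card_le_card hsub).trans ((card_union_le _ _).trans (Nat.add_le_add hzero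
            (card_biUnion_le.trans (sum_le_sum fun p hp => ?_)))))
      _ ≤ n * (R + 2) + S := by
          rw [sum_add_distrib, sum_const, smul_eq_mul, mul_one, Nat.mul_add, Nat.mul_add]
          have := Nat.mul_le_mul_left n hP
          nlinarith
    obtain ⟨-, hp, hpW⟩ := mem_filter.1 hp
    exact card_sq_dvd_le hp (fun hd => ((Nat.prime_iff_prime_int.1 hp).dvd_or_dvd hd).elim
      (hu i p hp hpW) (fun h => hpW (Int.natCast_dvd_natCast.1 h))) S
  obtain ⟨s, hs, hgood⟩ : ∃ s ∈ range S,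
      s ∉ univ.biUnion fun i => (range S).filter fun s => ¬Squarefree (F i s) := by
    refine exists_mem_notMem_of_card_lt_card ?_
    rw [card_range]
    by_contra hle
    have h1 : n * S ≤ n * ∑ i, ((range S).filter fun s => ¬Squarefree (F i s)).card :=
      Nat.mul_le_mul_left _ ((not_lt.1 hle).trans card_biUnion_le)
    rw [mul_sum] at h1
    have h2 := h1.trans (sum_le_sum fun i _ => hbad i)
    rw [sum_const, card_univ, smul_eq_mul] at h2
    omega
  simp only [mem_biUnion, mem_univ, true_and, mem_filter, hs, not_exists, not_not] at hgood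
  refine ⟨s, mem_range.1 hs, hgood, fun i j hij => Int.isCoprime_iff_nat_coprime.2 ?_⟩
  refine Nat.coprime_of_dvd fun p hp h1 h2 => ?_
  rw [← Int.natCast_dvd] at h1 h2
  refine hWF hp h1 (hres i j hij p hp ?_)
  rw [show u i * w j - u j * w i = u i * F j s - u j * F i s by rw [hF, hF]; ring]
  exact dvd_sub (h2.mul_left _) (h1.mul_left _)

end FA.KedlayaDisc

end
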