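import Fermat.Agent.KedlayaDisc.Reductions
import Fermat.Agent.KedlayaDisc.Shape
import Fermat.Agent.KedlayaDisc.Sieve
import Fermat.Agent.KedlayaDisc.Auxiliary
import Fermat.Agent.UchidaYamamura.RealRoots

/-!
# The parameters

Widely spaced critical points scaled by a large power `T` of a number `≡ 1` modulo `(k + 2)! ℓ`,
and `b` in a range of length `≫ T ^ (k + 2)` chosen so that the forms are squarefree, pairwise
coprime and prime to a given `N`; the range also fixes the number of real roots up to one.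
-/

set_option autoImplicit false

noncomputable section

open Polynomial Finset
open scoped Nat

namespace FA.KedlayaDisc

variable {k : ℕ} {a₀ : ℤ} {a : Fin k → ℤ}

theorem slope_ne_zero (i : Option (Fin k)) : slope k i ≠ 0 := by
  cases i with
  | none => exact pow_ne_zero _ (by omega)
  | some j => exact one_ne_zero

theorem abs_slope_le (i : Option (Fin k)) : |slope k i| ≤ ((k : ℤ) + 2) ^ (k + 2) := by
  cases i with
  | none => rw [slope, abs_of_nonneg (by positivity)]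
  | some j => rw [slope, abs_one]; exact one_le_pow₀ (by omega)

theorem not_dvd_slope {p : ℕ} (hp : p.Prime) (hpk : k + 2 < p) (i : Option (Fin k)) :
    ¬(p : ℤ) ∣ slope k i := by
  cases i with
  | none =>
    intro h
    have h' := Int.le_of_dvd (by omega) ((Nat.prime_iff_prime_int.1 hp).dvd_of_dvd_pow h)
    omega
  | some j =>
    intro h
    have h' := Int.le_of_dvd one_pos h
    exact absurd h' (by have := hp.two_le; omega)

/-- A residue avoiding the zeros of the forms modulo a large prime. -/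
theorem exists_good_residue_large {p : ℕ} (hp : p.Prime) (hpk : k + 2 < p) :
    ∃ r : ℕ, ∀ i, ¬(p : ℤ) ∣ form k a₀ a r i := by
  classical
  have := Fact.mk hp
  obtain ⟨r, -, hr⟩ := exists_mem_notMem_of_card_lt_card (t := (univ : Finset (ZMod p)))
    (s := univ.image fun i => -(offset k a₀ a i : ZMod p) / (slope k i : ZMod p))
    (card_image_le.trans_lt (by
      rw [card_univ, card_univ, ZMod.card, Fintype.card_option, Fintype.card_fin]; omega))
  refine ⟨r.val, fun i hi => hr (mem_image.2 ⟨i, mem_univ i, ?_⟩)⟩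
  have hu : (slope k i : ZMod p) ≠ 0 := fun e =>
    not_dvd_slope hp hpk i ((ZMod.intCast_zmod_eq_zero_iff_dvd _ p).1 e)
  rw [← ZMod.intCast_zmod_eq_zero_iff_dvd, form] at hi
  push_cast at hi
  rw [ZMod.natCast_val, ZMod.cast_id] at hi
  rw [div_eq_iff hu]
  linear_combination -hi

theorem exists_real_point (i : Option (Fin k)) : ∃ c : ℝ, IsPoint k a₀ a c i := by
  cases i with
  | none => exact ⟨(a₀ : ℝ) / ((k : ℝ) + 2), mul_div_cancel₀ _ (by positivity)⟩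
  | some j => exact ⟨_, rfl⟩

theorem eval_scale (h : Adm k a₀ a) (T : ℤ) (x : ℝ) :
    ((kPoly k (T * a₀) fun j => T * a j).map (Int.castRingHom ℝ)).eval ((T : ℝ) * x) =
      (T : ℝ) ^ (k + 2) * ((kPoly k a₀ a).map (Int.castRingHom ℝ)).eval x := by
  have e := congrArg (fun P => (Polynomial.map (Int.castRingHom ℝ) P).eval x) (kPoly_scale h T)
  simpa [Polynomial.map_comp, eval_comp] using e

/-- Scaling the offsets. -/
theorem offset_scale (h : Adm k a₀ a) (T : ℤ) (i : Option (Fin k)) :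
    offset k (T * a₀) (fun j => T * a j) i = T ^ (k + 2) * offset k a₀ a i := by
  obtain ⟨c, hc⟩ := exists_real_point (a₀ := a₀) (a := a) i
  have hc' : IsPoint k (T * a₀) (fun j => T * a j) ((T : ℝ) * c) i := by
    cases i with
    | none => show ((k : ℝ) + 2) * ((T : ℝ) * c) = _
              rw [Int.cast_mul, ← hc]; ring
    | some j => show (T : ℝ) * c = _
                rw [Int.cast_mul, ← hc]
  have e := cast_offset (R := ℝ) hc'
  rw [eval_scale h, mul_left_comm, ← cast_offset hc] at e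
  exact_mod_cast e

/-- The index of a critical point. -/
def pointIndex : Option (Fin k) → ℕ
  | none => 0
  | some j => j + 1

theorem pointIndex_injective : Function.Injective (pointIndex (k := k)) := fun i j h => by
  cases i <;> cases j <;> simp_all [pointIndex, Fin.ext_iff]

/-- The spaced critical points. -/
theorem exists_spaced (k m : ℕ) (hm : (k + 2)! ∣ m) (hm0 : 0 < m) :
    ∃ (a : Fin k → ℤ) (e : ℕ → ℝ), Adm k ((k : ℤ) + 1) a ∧ (∀ j, (m : ℤ) ∣ a j) ∧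
      Spaced k e ((kPoly k ((k : ℤ) + 1) a).map (Int.castRingHom ℝ)) ∧
      ∀ i, IsPoint k ((k : ℤ) + 1) a (e (pointIndex i)) i := by
  obtain ⟨B, hB⟩ : ∃ B : ℕ, B = 3 * 8 ^ (k + 2) := ⟨_, rfl⟩
  refine ⟨fun j => (m : ℤ) * (B : ℤ) ^ ((j : ℕ) + 1),
    fun l => if l = 0 then ((k : ℝ) + 1) / ((k : ℝ) + 2) else (m : ℝ) * (B : ℝ) ^ l, ?_⟩
  have hA : Adm k ((k : ℤ) + 1) fun j : Fin k => (m : ℤ) * (B : ℤ) ^ ((j : ℕ) + 1) :=
    ⟨dvd_rfl, fun j => (Int.natCast_dvd_natCast.2 hm).mul_right _⟩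
  refine ⟨hA, fun j => dvd_mul_right _ _, ⟨?_, fun i => ?_, ?_, fun s => ?_⟩, fun i => ?_⟩
  · simp only [if_true]; positivity
  · rw [show (3 * 8 ^ (k + 2) : ℝ) = (B : ℝ) by rw [hB]; push_cast; rfl]
    cases i with
    | zero =>
      simp only [zero_add, if_true, one_ne_zero, if_false, pow_one]
      rw [mul_comm (B : ℝ)]
      refine mul_le_mul_of_nonneg_right ((div_le_one (by positivity)).2 (by linarith) |>.trans ?_)
        (Nat.cast_nonneg B)
      exact_mod_cast hm0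
    | succ i =>
      simp only [Nat.succ_ne_zero, if_false]
      rw [pow_succ (B : ℝ) (i + 1)]
      linarith
  · rw [← coeff_zero_eq_eval_zero, coeff_map, coeff_zero_kPoly, map_zero]
  · rw [derivative_map, derivative_kPoly hA, map_derivPoly, prod_range_succ']
    simp only [eval_mul, eval_sub, eval_C, eval_X, eval_prod, if_true, Nat.succ_ne_zero, if_false,
      eq_intCast, Int.cast_add, Int.cast_mul, Int.cast_pow, Int.cast_natCast, Int.cast_one]
    rw [Fin.prod_univ_eq_prod_range (fun l => s - (m : ℝ) * (B : ℝ) ^ (l + 1)) k]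
    field_simp
  · cases i with
    | none => simp [IsPoint, pointIndex]; field_simp
    | some j => simp [IsPoint, pointIndex]

/-- The number of real roots after scaling. -/
theorem card_realRoots_scaled (h : Adm k a₀ a) {e : ℕ → ℝ}
    (hsp : Spaced k e ((kPoly k a₀ a).map (Int.castRingHom ℝ))) {T b : ℤ} (hT : T ≠ 0) {d : ℕ}
    (hd : d ≤ k + 1) {v : ℝ} (hb : (b : ℝ) = (T : ℝ) ^ (k + 2) * v)
    (hv1 : |((kPoly k a₀ a).map (Int.castRingHom ℝ)).eval (e d)| < (-1) ^ (k + 1 - d) * v)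
    (hv2 : (-1) ^ (k + 1 - d) * v <
      |((kPoly k a₀ a).map (Int.castRingHom ℝ)).eval (e (d + 1))|) :
    k + 1 - d ≤ (UchidaYamamura.realRoots (kPolyAdd k (T * a₀) (fun j => T * a j) b)).card ∧
      (UchidaYamamura.realRoots (kPolyAdd k (T * a₀) (fun j => T * a j) b)).card ≤ k + 2 - d := by
  classical
  obtain ⟨Q, hQdef⟩ : ∃ Q, Q = (kPoly k a₀ a).map (Int.castRingHom ℝ) := ⟨_, rfl⟩
  rw [← hQdef] at hsp hv1 hv2
  have hT0 : (T : ℝ) ≠ 0 := Int.cast_ne_zero.2 hT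
  have hQ : Q + C v ≠ 0 := fun h0 => by
    have h1 := congrArg (fun P : ℝ[X] => P.coeff (k + 2)) h0
    rw [hQdef, coeff_add, coeff_C, if_neg (by omega), coeff_map, ← (kPoly_monic k a₀ a).2,
      (kPoly_monic k a₀ a).1.coeff_natDegree, map_one, add_zero, coeff_zero] at h1
    exact one_ne_zero h1
  have hZ : ∀ x, x ∈ (Q + C v).roots.toFinset ↔ Q.eval x + v = 0 := fun x => by
    rw [Multiset.mem_toFinset, mem_roots hQ, IsRoot.def, eval_add, eval_C]
  have hscale : ∀ x : ℝ, (T : ℝ) * x ∈ UchidaYamamura.realRoots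
      (kPolyAdd k (T * a₀) (fun j => T * a j) b) ↔ Q.eval x + v = 0 := fun x => by
    rw [UchidaYamamura.mem_realRoots (kPolyAdd_monic _ _ _ _).1, kPolyAdd,
      Polynomial.map_add, map_C, eval_add, eval_C, eval_scale h, eq_intCast, hb, ← mul_add,
      mul_eq_zero, or_iff_right (pow_ne_zero _ hT0), hQdef]
  have hcard : (UchidaYamamura.realRoots (kPolyAdd k (T * a₀) (fun j => T * a j) b)).card
      = (Q + C v).roots.toFinset.card := by
    rw [← card_image_of_injective (Q + C v).roots.toFinset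
      (mul_right_injective₀ hT0 : Function.Injective ((T : ℝ) * ·))]
    refine congrArg Finset.card (Finset.ext fun y => ?_)
    obtain ⟨x, rfl⟩ : ∃ x, y = (T : ℝ) * x := ⟨y / T, (mul_div_cancel₀ y hT0).symm⟩
    rw [hscale, mem_image]
    exact ⟨fun h => ⟨x, (hZ x).2 h, rfl⟩, fun ⟨z, hz, hzx⟩ =>
      (mul_left_cancel₀ hT0 hzx) ▸ (hZ z).1 hz⟩
  rw [hcard]
  exact hsp.card_roots_bounds hd hv1 hv2 _ hZ

/-- The residues, at the auxiliary prime the one of the irreducibility. -/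
theorem exists_residues (h : Adm k a₀ a) (hn : IsCoprime a₀ ((k : ℤ) + 2)) {l : ℕ} [Fact l.Prime]
    (hlk : k + 2 < l) (hla : ∀ j, (l : ℤ) ∣ a j) (hla₀ : (l : ℤ) ∣ a₀ - ((k : ℤ) + 1))
    (hlirr : Irreducible (X ^ (k + 2) - X ^ (k + 1) + C ((-1) ^ (k + 3)) : (ZMod l)[X])) :
    ∀ p : ℕ, ∃ r : ℕ, p.Prime → (∀ i, ¬(p : ℤ) ∣ form k a₀ a r i) ∧
      (p = l → (l : ℤ) ∣ (r : ℤ) - (-1) ^ (k + 3)) := by
  intro p
  by_cases hpl : p = l
  · subst hpl
    refine ⟨((-1 : ZMod p) ^ (k + 3)).val, fun _ => ?_⟩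
    have hr : (p : ℤ) ∣ ((((-1 : ZMod p) ^ (k + 3)).val : ℕ) : ℤ) - (-1) ^ (k + 3) := by
      rw [← ZMod.intCast_zmod_eq_zero_iff_dvd]
      simp
    exact ⟨(irreducible_of_auxiliary h hlk hla hla₀ hr hlirr).2, fun _ => hr⟩
  by_cases hp : p.Prime
  · rcases le_or_gt p (k + 2) with hpk | hpk
    · obtain ⟨r, hr⟩ := exists_good_residue h hn hp hpk
      exact ⟨r, fun _ => ⟨hr, fun h => absurd h hpl⟩⟩
    · obtain ⟨r, hr⟩ := exists_good_residue_large (a₀ := a₀) (a := a) hp hpk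
      exact ⟨r, fun _ => ⟨hr, fun h => absurd h hpl⟩⟩
  · exact ⟨0, fun h => absurd h hp⟩

/-- **The parameters.** -/
theorem exists_parameters_roots (k : ℕ) {N : ℕ} (hN : 0 < N) {d : ℕ} (hd : d ≤ k + 1) :
    ∃ (a₀ : ℤ) (a : Fin k → ℤ) (b : ℤ), Adm k a₀ a ∧ IsCoprime a₀ ((k : ℤ) + 2) ∧
      Irreducible ((kPolyAdd k a₀ a b).map (Int.castRingHom ℚ)) ∧
      (∀ i, Squarefree (form k a₀ a b i)) ∧
      (Pairwise fun i j => IsCoprime (form k a₀ a b i) (form k a₀ a b j)) ∧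
      (∀ i, IsCoprime (form k a₀ a b i) (N : ℤ)) ∧
      k + 1 - d ≤ (UchidaYamamura.realRoots (kPolyAdd k a₀ a b)).card ∧
      (UchidaYamamura.realRoots (kPolyAdd k a₀ a b)).card ≤ k + 2 - d := by
  classical
  obtain ⟨l, hl, -, hlk, hlirr⟩ := exists_auxiliary_prime k 0
  have := Fact.mk hl
  obtain ⟨m, hm⟩ : ∃ m, m = (k + 2)! * l := ⟨_, rfl⟩
  have hm0 : 0 < m := hm ▸ Nat.mul_pos (Nat.factorial_pos _) hl.pos
  obtain ⟨a, e, hA, hma, hsp, hpt⟩ := exists_spaced k m (hm ▸ dvd_mul_right _ _) hm0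
  obtain ⟨a₀, ha₀⟩ : ∃ a₀ : ℤ, a₀ = (k : ℤ) + 1 := ⟨_, rfl⟩
  rw [← ha₀] at hA hsp hpt
  obtain ⟨Δ, hΔ⟩ : ∃ Δ : Option (Fin k) → Option (Fin k) → ℤ,
      ∀ i j, Δ i j = slope k i * offset k a₀ a j - slope k j * offset k a₀ a i :=
    ⟨_, fun _ _ => rfl⟩
  have hΔ0 : ∀ i j, i ≠ j → Δ i j ≠ 0 := fun i j hij h0 => by
    have h1 : ((Δ i j : ℤ) : ℝ) = 0 := by rw [h0, Int.cast_zero]
    rw [hΔ, Int.cast_sub, Int.cast_mul, Int.cast_mul, cast_offset (hpt i),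
      cast_offset (hpt j), mul_left_comm, ← mul_sub, ← mul_sub, mul_eq_zero, mul_eq_zero,
      sub_eq_zero] at h1
    rcases h1 with h | h | h
    · exact slope_ne_zero j (Int.cast_eq_zero.1 h)
    · exact slope_ne_zero i (Int.cast_eq_zero.1 h)
    · exact hij (pointIndex_injective (hsp.strictMono_abs.injective (congrArg abs h.symm)))
  obtain ⟨W, hW⟩ : ∃ W, W = m * N * (m + 1) *
      ∏ i, ∏ j, (if i = j then 1 else (Δ i j).natAbs) := ⟨_, rfl⟩
  have hW0 : 0 < W := hW ▸ Nat.mul_pos (Nat.mul_pos (Nat.mul_pos hm0 hN) (Nat.succ_pos m))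
    (prod_pos fun i _ => prod_pos fun j _ => by
      split_ifs with h
      · exact one_pos
      · exact Int.natAbs_pos.2 (hΔ0 i j h))
  have hmW : m ∣ W := hW ▸ dvd_mul_of_dvd_left (dvd_mul_of_dvd_left (dvd_mul_right _ _) _) _
  have hNW : N ∣ W := hW ▸ dvd_mul_of_dvd_left (dvd_mul_of_dvd_left (dvd_mul_left _ _) _) _
  have hTW : m + 1 ∣ W := hW ▸ dvd_mul_of_dvd_left (dvd_mul_left _ _) _
  have hΔW : ∀ i j, i ≠ j → (Δ i j).natAbs ∣ W := fun i j hij => by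
    have h1 := dvd_prod_of_mem (fun j => if i = j then 1 else (Δ i j).natAbs) (mem_univ j)
    rw [if_neg hij] at h1
    rw [hW]
    exact Dvd.dvd.mul_left (h1.trans
      (dvd_prod_of_mem (fun i => ∏ j, if i = j then 1 else (Δ i j).natAbs) (mem_univ i))) _
  have hsmall : ∀ p : ℕ, p.Prime → p ≤ k + 2 → p ∣ W := fun p hp hpk =>
    ((Nat.dvd_factorial hp.pos hpk).trans (hm ▸ dvd_mul_right _ _)).trans hmW
  -- the size of the scaling
  obtain ⟨α, hα⟩ : ∃ α, α = |((kPoly k a₀ a).map (Int.castRingHom ℝ)).eval (e d)| := ⟨_, rfl⟩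
  obtain ⟨β, hβ⟩ : ∃ β, β = |((kPoly k a₀ a).map (Int.castRingHom ℝ)).eval (e (d + 1))| :=
    ⟨_, rfl⟩
  have hαβ : α < β := hα ▸ hβ ▸ hsp.strictMono_abs (Nat.lt_succ_self d)
  have hα0 : 0 ≤ α := hα ▸ abs_nonneg _
  obtain ⟨U, hU⟩ : ∃ U, U = β - α := ⟨_, rfl⟩
  have hU0 : 0 < U := by linarith
  obtain ⟨K, hK1, hK⟩ : ∃ K : ℕ, 1 ≤ K ∧ ((k : ℝ) + 2) ^ (k + 2) * β +
      ∑ i, |(offset k a₀ a i : ℝ)| ≤ (K : ℝ) := ⟨⌈_⌉₊ + 1, by omega, (Nat.le_ceil _).trans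
        (by push_cast; linarith)⟩
  obtain ⟨E, hE⟩ := exists_nat_ge
    (2 * (W : ℝ) * (((k : ℝ) + 1) * ((k : ℝ) + 2) * ((K : ℝ) + 2) + 1) / U)
  obtain ⟨Y, hY⟩ : ∃ Y, Y = (m + 1) ^ (E * (k + 2)) := ⟨_, rfl⟩
  obtain ⟨T, hT⟩ : ∃ T : ℕ, T = (m + 1) ^ (2 * E) := ⟨_, rfl⟩
  have hTn : T ^ (k + 2) = Y ^ 2 := by rw [hT, hY, ← pow_mul, ← pow_mul]; ring_nf
  have hEY : (E : ℝ) ≤ (Y : ℝ) := by
    exact_mod_cast hY ▸ (Nat.le_mul_of_pos_right E (Nat.succ_pos (k + 1))).trans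
      (Nat.lt_pow_self (show 1 < m + 1 by omega)).le
  have hY1 : (1 : ℝ) ≤ Y := by exact_mod_cast hY ▸ Nat.one_le_pow _ _ (Nat.succ_pos m)
  have hbig : ((k : ℝ) + 1) * ((k : ℝ) + 2) * ((K : ℝ) + 2) * Y + 1 ≤
      U * (Y : ℝ) ^ 2 / (2 * W) := by
    have hW' : (0 : ℝ) < W := Nat.cast_pos.2 hW0
    rw [le_div_iff₀ (by positivity)]
    rw [div_le_iff₀ hU0] at hE
    have h1 := hE.trans (mul_le_mul_of_nonneg_right hEY hU0.le)
    have h2 : 2 * (W : ℝ) ≤ 2 * W * Y := le_mul_of_one_le_right (by positivity) hY1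
    have h3 := mul_le_mul_of_nonneg_right h1 (Nat.cast_nonneg Y)
    linarith
  -- the scaled parameters
  obtain ⟨A, hAdef⟩ : ∃ A : Fin k → ℤ, A = fun j => (T : ℤ) * a j := ⟨_, rfl⟩
  have hAT : Adm k ((T : ℤ) * a₀) A := hAdef ▸ hA.smul T
  have hmT : (m : ℤ) ∣ (T : ℤ) - 1 := by
    rw [hT, Nat.cast_pow, Nat.cast_succ]
    simpa using sub_dvd_pow_sub_pow ((m : ℤ) + 1) 1 (2 * E)
  have hcop : IsCoprime ((T : ℤ) * a₀) ((k : ℤ) + 2) := by
    refine IsCoprime.mul_left ?_ (ha₀ ▸ ⟨-1, 1, by ring⟩)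
    obtain ⟨c, hc⟩ := (show (((k + 2 : ℕ) : ℤ)) ∣ (T : ℤ) - 1 from (Int.natCast_dvd_natCast.2
      (((Nat.dvd_factorial (Nat.succ_pos _) le_rfl).trans (hm ▸ dvd_mul_right _ _)))).trans hmT)
    exact ⟨1, -c, by push_cast at hc; linear_combination hc⟩
  have hlm : (l : ℤ) ∣ (m : ℤ) := Int.natCast_dvd_natCast.2 (hm ▸ dvd_mul_left _ _)
  have hlA : ∀ j, (l : ℤ) ∣ A j := fun j => hAdef ▸ (hlm.trans (hma j)).mul_left _
  have hla₀ : (l : ℤ) ∣ (T : ℤ) * a₀ - ((k : ℤ) + 1) := by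
    rw [← ha₀, show (T : ℤ) * a₀ - a₀ = ((T : ℤ) - 1) * a₀ by ring]
    exact (hlm.trans hmT).mul_right _
  have hoff : ∀ i, offset k ((T : ℤ) * a₀) A i = (T : ℤ) ^ (k + 2) * offset k a₀ a i :=
    fun i => hAdef ▸ offset_scale hA T i
  -- the residues
  have hres := exists_residues hAT hcop hlk hlA hla₀ hlirr
  choose r hr using hres
  obtain ⟨c, hc⟩ := Nat.chineseRemainderOfFinset r id W.primeFactors
    (fun p hp => (Nat.prime_of_mem_primeFactors hp).ne_zero) fun p hp q hq hpq =>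
      (Nat.coprime_primes (Nat.prime_of_mem_primeFactors hp)
        (Nat.prime_of_mem_primeFactors hq)).2 hpq
  -- the range of `b`
  obtain ⟨L, hL⟩ : ∃ L : ℝ,
      L = (-1) ^ (k + 1 - d) * ((α + β) / 2 * (Y : ℝ) ^ 2) - U * (Y : ℝ) ^ 2 / 2 := ⟨_, rfl⟩
  obtain ⟨b₀, hb₀⟩ : ∃ b₀ : ℤ, b₀ = ⌊L⌋ + 1 + ((c : ℤ) - (⌊L⌋ + 1)) % (W : ℤ) := ⟨_, rfl⟩
  have hb₀W : (W : ℤ) ∣ (c : ℤ) - b₀ := by
    rw [hb₀, ← sub_sub]
    exact Int.dvd_self_sub_emod
  have hlo : L < (b₀ : ℝ) := by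
    refine (Int.lt_floor_add_one L).trans_le ?_
    rw [hb₀]
    push_cast
    have h : (0 : ℝ) ≤ ((((c : ℤ) - (⌊L⌋ + 1)) % (W : ℤ) : ℤ) : ℝ) :=
      Int.cast_nonneg (Int.emod_nonneg _ (by omega))
    linarith
  have hhi : (b₀ : ℝ) < L + 1 + W := by
    rw [hb₀]
    push_cast
    have h : ((((c : ℤ) - (⌊L⌋ + 1)) % (W : ℤ) : ℤ) : ℝ) < (W : ℝ) := by
      exact_mod_cast Int.emod_lt_of_pos _ (by omega : (0 : ℤ) < W)
    linarith [Int.floor_le L]
  obtain ⟨S, hS⟩ : ∃ S, S = ⌊U * (Y : ℝ) ^ 2 / (2 * W)⌋₊ := ⟨_, rfl⟩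
  have hS1 : (S : ℝ) ≤ U * (Y : ℝ) ^ 2 / (2 * W) := hS ▸ Nat.floor_le (by positivity)
  have hS2 : U * (Y : ℝ) ^ 2 / (2 * W) < (S : ℝ) + 1 := hS ▸ Nat.lt_floor_add_one _
  have hsb : ∀ s < S, |((b₀ + W * (s : ℕ) : ℤ) : ℝ) -
      (-1) ^ (k + 1 - d) * ((α + β) / 2 * (Y : ℝ) ^ 2)| < U * (Y : ℝ) ^ 2 / 2 := by
    intro s hs
    have h1 : (W : ℝ) * ((s : ℝ) + 1) ≤ W * S :=
      mul_le_mul_of_nonneg_left (by exact_mod_cast hs) (Nat.cast_nonneg W)
    have h2 : (2 * W) * (S : ℝ) ≤ U * (Y : ℝ) ^ 2 := by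
      rwa [le_div_iff₀ (by positivity), mul_comm] at hS1
    have h3 : (1 : ℝ) < U * (Y : ℝ) ^ 2 / 2 := by
      have h4 : (1 : ℝ) * (2 * W) < U * (Y : ℝ) ^ 2 := by
        rw [← lt_div_iff₀ (by positivity)]
        exact lt_of_lt_of_le (lt_add_of_pos_left _ (by positivity)) hbig
      have h5 : (1 : ℝ) ≤ W := by exact_mod_cast hW0
      linarith
    rw [abs_lt]
    have h0 : (0 : ℝ) ≤ (W : ℝ) * s := by positivity
    push_cast
    constructor <;> linarith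
  have habs : ∀ s < S, |((b₀ + W * (s : ℕ) : ℤ) : ℝ)| ≤ β * (Y : ℝ) ^ 2 := by
    intro s hs
    have h := (abs_sub_abs_le_abs_sub _ _).trans (hsb s hs).le
    rw [abs_mul, abs_pow, abs_neg, abs_one, one_pow, one_mul,
      abs_of_nonneg (mul_nonneg (by linarith) (sq_nonneg _) :
        (0 : ℝ) ≤ (α + β) / 2 * (Y : ℝ) ^ 2), hU] at h
    linarith
  have hmod : ∀ p : ℕ, p.Prime → p ∣ W → ∀ s : ℕ,
      (p : ℤ) ∣ (b₀ + W * (s : ℤ)) - (r p : ℤ) := by
    intro p hp hpW s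
    have h1 : (p : ℤ) ∣ (r p : ℤ) - (c : ℤ) :=
      Nat.modEq_iff_dvd.1 (hc p (Nat.mem_primeFactors.2 ⟨hp, hpW, hW0.ne'⟩))
    have h2 : (p : ℤ) ∣ (W : ℤ) := Int.natCast_dvd_natCast.2 hpW
    rw [show b₀ + W * (s : ℤ) - (r p : ℤ) =
      W * (s : ℤ) - ((r p : ℤ) - c) - ((c : ℤ) - b₀) by ring]
    exact dvd_sub (dvd_sub (h2.mul_right _) h1) (h2.trans hb₀W)
  have hTW' : ∀ p : ℕ, p.Prime → p ∣ T → p ∣ W := fun p hp h =>
    (hp.dvd_of_dvd_pow (hT ▸ h)).trans hTW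
  obtain ⟨s, hs, hsq, hpair⟩ := exists_squarefree_values (slope k) (offset k ((T : ℤ) * a₀) A)
    (W := W) (n := k + 2) (R := K * Y) (S := S) b₀ (by omega) hW0 hsmall slope_ne_zero
    (fun i p hp hpW => not_dvd_slope hp (not_le.1 fun h => hpW (hsmall p hp h)) i)
    (fun i s => by
      refine Int.isCoprime_iff_nat_coprime.2 (Nat.coprime_of_dvd fun p hp h1 h2 => ?_)
      rw [← Int.natCast_dvd] at h1
      rw [Int.natAbs_natCast] at h2
      refine (hr p hp).1 i ?_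
      rw [form, show slope k i * (r p : ℤ) + offset k ((T : ℤ) * a₀) A i =
        slope k i * (b₀ + W * (s : ℤ)) + offset k ((T : ℤ) * a₀) A i -
          slope k i * ((b₀ + W * (s : ℤ)) - (r p : ℤ)) by ring]
      exact dvd_sub h1 ((hmod p hp h2 s).mul_left _))
    (fun i j hij p hp h => by
      rw [hoff, hoff, show slope k i * ((T : ℤ) ^ (k + 2) * offset k a₀ a j) -
        slope k j * ((T : ℤ) ^ (k + 2) * offset k a₀ a i) = (T : ℤ) ^ (k + 2) * Δ i j by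
          rw [hΔ]; ring] at h
      rcases (Nat.prime_iff_prime_int.1 hp).dvd_or_dvd h with h | h
      · exact hTW' p hp
          (Int.natCast_dvd_natCast.1 ((Nat.prime_iff_prime_int.1 hp).dvd_of_dvd_pow h))
      · exact (Int.natCast_dvd.1 h).trans (hΔW i j hij))
    (fun i s hs => by
      rw [← @Int.cast_lt ℝ, Int.cast_abs, Int.cast_add, Int.cast_mul, hoff, Int.cast_mul,
        Int.cast_pow, Int.cast_natCast, ← Nat.cast_pow, hTn]
      push_cast
      have h1 : |(slope k i : ℝ)| ≤ ((k : ℝ) + 2) ^ (k + 2) := by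
        have := abs_slope_le (k := k) i
        rw [← @Int.cast_le ℝ, Int.cast_abs] at this
        push_cast at this
        exact this
      have h2 := habs s hs
      push_cast at h2
      have h3 : |(offset k a₀ a i : ℝ)| ≤ ∑ i, |(offset k a₀ a i : ℝ)| :=
        single_le_sum (fun i _ => abs_nonneg ((offset k a₀ a i : ℝ))) (mem_univ i)
      have h4 : (K : ℝ) ≤ (K : ℝ) ^ 2 := by
        nlinarith [(show (1 : ℝ) ≤ K by exact_mod_cast hK1)]
      refine lt_of_le_of_lt ((abs_add_le _ _).trans ?_)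
        (lt_add_one ((K : ℝ) ^ 2 * (Y : ℝ) ^ 2) |>.trans_le
          (by nlinarith [mul_nonneg (Nat.cast_nonneg (α := ℝ) K) (Nat.cast_nonneg (α := ℝ) Y)]))
      rw [abs_mul, abs_mul, abs_of_nonneg (sq_nonneg (Y : ℝ))]
      have h5 := mul_le_mul h1 h2 (abs_nonneg _) (by positivity)
      have h6 := mul_le_mul_of_nonneg_right (hK.trans h4) (sq_nonneg (Y : ℝ))
      have h7 := mul_le_mul_of_nonneg_left h3 (sq_nonneg (Y : ℝ))
      linarith)
    (by
      rw [Fintype.card_option, Fintype.card_fin]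
      have h1 : ((k : ℝ) + 1) * ((k : ℝ) + 2) * ((K : ℝ) * Y + 2) < (S : ℝ) := by
        nlinarith [mul_nonneg (mul_nonneg (add_nonneg (Nat.cast_nonneg (α := ℝ) k) zero_le_one)
          (add_nonneg (Nat.cast_nonneg (α := ℝ) k) zero_le_two)) (sub_nonneg.2 hY1)]
      have h2 : (k + 1) * (k + 2) * (K * Y + 2) < S := by exact_mod_cast h1
      nlinarith)
  refine ⟨(T : ℤ) * a₀, A, b₀ + W * (s : ℤ), hAT, hcop, ?_, hsq, hpair, fun i => ?_, ?_⟩
  · refine (irreducible_of_auxiliary hAT hlk hlA hla₀ ?_ hlirr).1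
    have hlW : l ∣ W := (hm ▸ dvd_mul_left _ _ : l ∣ m).trans hmW
    have h1 := hmod l hl hlW s
    have h2 := (hr l hl).2 rfl
    have := dvd_add h1 h2
    rwa [sub_add_sub_cancel] at this
  · refine Int.isCoprime_iff_nat_coprime.2 (Nat.coprime_of_dvd fun p hp h1 h2 => ?_)
    rw [← Int.natCast_dvd] at h1
    rw [Int.natAbs_natCast] at h2
    refine (hr p hp).1 i ?_
    rw [form] at h1 ⊢
    rw [show slope k i * (r p : ℤ) + offset k ((T : ℤ) * a₀) A i =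
      slope k i * (b₀ + W * (s : ℤ)) + offset k ((T : ℤ) * a₀) A i -
        slope k i * ((b₀ + W * (s : ℤ)) - (r p : ℤ)) by ring]
    exact dvd_sub h1 ((hmod p hp (h2.trans hNW) s).mul_left _)
  · have hTR : (T : ℝ) ^ (k + 2) = (Y : ℝ) ^ 2 := by exact_mod_cast hTn
    have hY0 : (0 : ℝ) < (Y : ℝ) ^ 2 := by positivity
    have hv := hsb s hs
    obtain ⟨v, hv'⟩ : ∃ v : ℝ, v = ((b₀ + W * (s : ℕ) : ℤ) : ℝ) / (Y : ℝ) ^ 2 := ⟨_, rfl⟩
    have hvY : ((b₀ + W * (s : ℕ) : ℤ) : ℝ) = v * (Y : ℝ) ^ 2 := by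
      rw [hv', div_mul_cancel₀ _ hY0.ne']
    have hT0 : (T : ℤ) ≠ 0 := Nat.cast_ne_zero.2 (hT ▸ pow_ne_zero _ (Nat.succ_ne_zero m))
    rw [hvY, abs_lt, hU] at hv
    rw [hAdef]
    refine card_realRoots_scaled hA hsp (v := v) hT0 hd ?_ ?_ ?_
    · rw [hvY, Int.cast_natCast, hTR]
      ring
    all_goals
      simp only [← hα, ← hβ]
      rcases neg_one_pow_eq_or ℝ (k + 1 - d) with h | h <;> rw [h] at hv ⊢ <;>
        refine lt_of_mul_lt_mul_right ?_ hY0.le <;> linarith only [hv.1, hv.2]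

/-- The parameters with all roots real. -/
theorem exists_parameters (k : ℕ) {N : ℕ} (hN : 0 < N) :
    ∃ (a₀ : ℤ) (a : Fin k → ℤ) (b : ℤ), Adm k a₀ a ∧ IsCoprime a₀ ((k : ℤ) + 2) ∧
      Irreducible ((kPolyAdd k a₀ a b).map (Int.castRingHom ℚ)) ∧
      (∀ i, Squarefree (form k a₀ a b i)) ∧
      (Pairwise fun i j => IsCoprime (form k a₀ a b i) (form k a₀ a b j)) ∧
      (∀ i, IsCoprime (form k a₀ a b i) (N : ℤ)) ∧
      k + 1 ≤ (UchidaYamamura.realRoots (kPolyAdd k a₀ a b)).card := by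
  obtain ⟨a₀, a, b, h1, h2, h3, h4, h5, h6, h7, -⟩ :=
    exists_parameters_roots k hN (Nat.zero_le (k + 1))
  exact ⟨a₀, a, b, h1, h2, h3, h4, h5, h6, h7⟩

end FA.KedlayaDisc

end
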