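import Mathlib

/-!
# A primitive with prescribed critical points

For `k + 1 ∣ a₀` and `a_j` multiples of `(k + 2)!` the primitive `P`, `P 0 = 0`, of
`((k + 2) X - a₀) ∏ (X - a_j)` has integral coefficients. The values of `P + b` at its critical
points, scaled to be integers, are linear forms in `b`; where two roots collide one vanishes.
-/

set_option autoImplicit false

noncomputable section

open Polynomial Finset
open scoped Nat

namespace FA.KedlayaDisc

variable {k : ℕ} {a₀ b : ℤ} {a : Fin k → ℤ}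

/-- The derivative. -/
def derivPoly (k : ℕ) (a₀ : ℤ) (a : Fin k → ℤ) : ℤ[X] :=
  (C ((k : ℤ) + 2) * X - C a₀) * ∏ j, (X - C (a j))

/-- The primitive vanishing at `0`. -/
def kPoly (k : ℕ) (a₀ : ℤ) (a : Fin k → ℤ) : ℤ[X] :=
  ∑ j ∈ range (k + 2), C ((derivPoly k a₀ a).coeff j / ((j : ℤ) + 1)) * X ^ (j + 1)

/-- The conditions of integrality. -/
structure Adm (k : ℕ) (a₀ : ℤ) (a : Fin k → ℤ) : Prop where
  dvd_first : ((k : ℤ) + 1) ∣ a₀
  dvd_rest : ∀ j, (((k + 2)! : ℕ) : ℤ) ∣ a j

theorem Adm.smul (h : Adm k a₀ a) (T : ℤ) : Adm k (T * a₀) (fun j => T * a j) :=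
  ⟨h.dvd_first.mul_left T, fun j => (h.dvd_rest j).mul_left T⟩

theorem map_derivPoly {R : Type*} [CommRing R] (f : ℤ →+* R) :
    (derivPoly k a₀ a).map f =
      (C ((k : R) + 2) * X - C (f a₀)) * ∏ j, (X - C (f (a j))) := by
  simp [derivPoly, Polynomial.map_prod, Polynomial.map_add, Polynomial.map_natCast, map_ofNat]

theorem natDegree_prod_linear (a : Fin k → ℤ) : (∏ j, (X - C (a j))).natDegree = k := by
  rw [natDegree_prod_of_monic _ _ fun j _ => monic_X_sub_C _]
  simp only [natDegree_X_sub_C, sum_const, card_univ, Fintype.card_fin, smul_eq_mul, mul_one]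

theorem natDegree_factor_le : (C ((k : ℤ) + 2) * X - C a₀).natDegree ≤ 1 := by
  refine (natDegree_sub_le _ _).trans ?_
  rw [natDegree_C, max_le_iff]
  exact ⟨(natDegree_C_mul_le _ _).trans natDegree_X_le, Nat.zero_le _⟩

theorem natDegree_derivPoly_le : (derivPoly k a₀ a).natDegree ≤ k + 1 := by
  refine natDegree_mul_le.trans ?_
  rw [natDegree_prod_linear, add_comm k 1]
  exact Nat.add_le_add_right natDegree_factor_le _

theorem coeff_derivPoly_top : (derivPoly k a₀ a).coeff (k + 1) = (k : ℤ) + 2 := by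
  rw [derivPoly, add_comm k 1, coeff_mul_add_eq_of_natDegree_le natDegree_factor_le
    (natDegree_prod_linear a).le]
  have h : (∏ j, (X - C (a j))).coeff k = 1 := by
    have h1 := (monic_prod_of_monic univ _ fun j _ => monic_X_sub_C (a j)).coeff_natDegree
    rwa [natDegree_prod_linear] at h1
  rw [h, coeff_sub, coeff_C_mul, coeff_X_one, coeff_C_succ]
  ring

theorem dvd_coeff_derivPoly (h : Adm k a₀ a) (j : ℕ) :
    ((j : ℤ) + 1) ∣ (derivPoly k a₀ a).coeff j := by
  rcases lt_or_ge (k + 1) j with hj | hj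
  · rw [coeff_eq_zero_of_natDegree_lt (natDegree_derivPoly_le.trans_lt hj)]
    exact dvd_zero _
  have hM : ((j : ℤ) + 1) ∣ (((k + 2)! : ℕ) : ℤ) := by
    rw [← Nat.cast_succ, Int.natCast_dvd_natCast]
    exact Nat.dvd_factorial (Nat.succ_pos j) (by omega)
  have key : (((k + 2)! : ℕ) : ℤ) ∣ (derivPoly k a₀ a).coeff j -
      ((C ((k : ℤ) + 2) * X - C a₀) * X ^ k).coeff j := by
    have hz : ∀ i, Int.castRingHom (ZMod (k + 2)!) (a i) = 0 := fun i => by
      rw [eq_intCast, ZMod.intCast_zmod_eq_zero_iff_dvd]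
      exact h.dvd_rest i
    have e : (derivPoly k a₀ a).map (Int.castRingHom (ZMod (k + 2)!)) =
        ((C ((k : ℤ) + 2) * X - C a₀) * X ^ k).map (Int.castRingHom (ZMod (k + 2)!)) := by
      simp [map_derivPoly, hz, Polynomial.map_add, Polynomial.map_natCast, map_ofNat]
    have := congrArg (fun p => p.coeff j) e
    simp only [coeff_map, eq_intCast] at this
    rwa [← ZMod.intCast_zmod_eq_zero_iff_dvd, Int.cast_sub, sub_eq_zero]
  refine (Int.dvd_iff_dvd_of_dvd_sub (hM.trans key)).2 ?_
  rw [coeff_mul_X_pow']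
  split_ifs with hkj
  · rcases (show j - k = 0 ∨ j - k = 1 by omega) with h0 | h1
    · rw [h0, coeff_sub, coeff_C_mul, coeff_X_zero, mul_zero, coeff_C_zero, zero_sub, dvd_neg,
        show j = k by omega]
      exact h.dvd_first
    · rw [h1, coeff_sub, coeff_C_mul, coeff_X_one, mul_one, coeff_C_succ, sub_zero,
        show j = k + 1 by omega]
      exact ⟨1, by push_cast; ring⟩
  · exact dvd_zero _

theorem derivative_kPoly (h : Adm k a₀ a) :
    derivative (kPoly k a₀ a) = derivPoly k a₀ a := by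
  rw [kPoly, derivative_sum]
  conv_rhs => rw [as_sum_range' (derivPoly k a₀ a) (k + 2)
    (Nat.lt_succ_of_le natDegree_derivPoly_le)]
  refine sum_congr rfl fun j _ => ?_
  rw [derivative_C_mul_X_pow, Nat.add_sub_cancel, Nat.cast_succ,
    Int.ediv_mul_cancel (dvd_coeff_derivPoly h j), C_mul_X_pow_eq_monomial]

theorem coeff_zero_kPoly : (kPoly k a₀ a).coeff 0 = 0 := by
  rw [kPoly, finsetSum_coeff]
  exact sum_eq_zero fun j _ => by rw [coeff_C_mul, coeff_X_pow, if_neg (by omega), mul_zero]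

theorem kPoly_monic (k : ℕ) (a₀ : ℤ) (a : Fin k → ℤ) :
    (kPoly k a₀ a).Monic ∧ (kPoly k a₀ a).natDegree = k + 2 := by
  have hle : (kPoly k a₀ a).natDegree ≤ k + 2 := natDegree_sum_le_of_forall_le _ _ fun j hj =>
    (natDegree_C_mul_le _ _).trans ((natDegree_X_pow_le _).trans (mem_range.1 hj))
  have hc : (kPoly k a₀ a).coeff (k + 2) = 1 := by
    rw [kPoly, finsetSum_coeff, sum_eq_single (k + 1)
      (fun j _ hj => by rw [coeff_C_mul, coeff_X_pow, if_neg (by omega), mul_zero])
      (fun hj => absurd (mem_range.2 (by omega)) hj), coeff_C_mul, coeff_X_pow_self, mul_one,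
      coeff_derivPoly_top, show (((k + 1 : ℕ) : ℤ) + 1) = (k : ℤ) + 2 by push_cast; ring,
      Int.ediv_self (by omega)]
  exact ⟨monic_of_natDegree_le_of_coeff_eq_one _ hle hc,
    natDegree_eq_of_le_of_coeff_ne_zero hle (by rw [hc]; exact one_ne_zero)⟩

/-- The polynomial. -/
def kPolyAdd (k : ℕ) (a₀ : ℤ) (a : Fin k → ℤ) (b : ℤ) : ℤ[X] :=
  kPoly k a₀ a + C b

theorem kPolyAdd_monic (k : ℕ) (a₀ : ℤ) (a : Fin k → ℤ) (b : ℤ) :
    (kPolyAdd k a₀ a b).Monic ∧ (kPolyAdd k a₀ a b).natDegree = k + 2 := by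
  obtain ⟨hm, hd⟩ := kPoly_monic k a₀ a
  refine ⟨hm.add_of_left ?_, by rw [kPolyAdd, natDegree_add_C, hd]⟩
  rw [degree_eq_natDegree hm.ne_zero, hd]
  exact degree_C_le.trans_lt (Nat.cast_pos.2 (Nat.succ_pos _))

theorem derivative_kPolyAdd (h : Adm k a₀ a) :
    derivative (kPolyAdd k a₀ a b) = derivPoly k a₀ a := by
  rw [kPolyAdd, derivative_add, derivative_C, add_zero, derivative_kPoly h]

/-! ### The forms -/

/-- The coefficient of `b` in the forms. -/
def slope (k : ℕ) : Option (Fin k) → ℤ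
  | none => ((k : ℤ) + 2) ^ (k + 2)
  | some _ => 1

/-- The constant term of the forms. -/
def offset (k : ℕ) (a₀ : ℤ) (a : Fin k → ℤ) : Option (Fin k) → ℤ
  | none => ((kPoly k a₀ a).scaleRoots ((k : ℤ) + 2)).eval a₀
  | some j => (kPoly k a₀ a).eval (a j)

/-- The scaled values of `P + b` at its critical points. -/
def form (k : ℕ) (a₀ : ℤ) (a : Fin k → ℤ) (b : ℤ) (i : Option (Fin k)) : ℤ :=
  slope k i * b + offset k a₀ a i

/-- `c` is the critical point of index `i`. -/
def IsPoint {R : Type*} [CommRing R] (k : ℕ) (a₀ : ℤ) (a : Fin k → ℤ) (c : R) :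
    Option (Fin k) → Prop
  | none => ((k : R) + 2) * c = (a₀ : R)
  | some j => c = (a j : R)

theorem cast_offset {R : Type*} [CommRing R] {c : R} {i : Option (Fin k)}
    (h : IsPoint k a₀ a c i) : (offset k a₀ a i : R) =
      (slope k i : R) * ((kPoly k a₀ a).map (Int.castRingHom R)).eval c := by
  cases i with
  | none =>
    have h' := scaleRoots_eval₂_mul (p := kPoly k a₀ a) (Int.castRingHom R) c ((k : ℤ) + 2)
    rw [eq_intCast, Int.cast_add, Int.cast_natCast, Int.cast_ofNat, h,
      (kPoly_monic k a₀ a).2, ← eq_intCast (Int.castRingHom R) a₀, eval₂_at_apply] at h'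
    rw [eval_map, offset, slope, Int.cast_pow, Int.cast_add, Int.cast_natCast, Int.cast_ofNat,
      ← eq_intCast (Int.castRingHom R) _, h']
  | some j =>
    rw [show c = (a j : R) from h, eval_map, ← eq_intCast (Int.castRingHom R) (a j), eval₂_at_apply,
      offset, slope, Int.cast_one, one_mul, eq_intCast]

theorem cast_form {R : Type*} [CommRing R] {c : R} {i : Option (Fin k)}
    (h : IsPoint k a₀ a c i) : (form k a₀ a b i : R) =
      (slope k i : R) * ((kPolyAdd k a₀ a b).map (Int.castRingHom R)).eval c := by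
  rw [form, Int.cast_add, Int.cast_mul, cast_offset h, kPolyAdd, Polynomial.map_add, map_C,
    eval_add, eval_C, eq_intCast]
  ring

/-- At a double root some form vanishes, and the root is the critical point of that index. -/
theorem exists_form_eq_zero {F : Type*} [Field F] {c : F}
    (hc : ((kPolyAdd k a₀ a b).map (Int.castRingHom F)).eval c = 0)
    (hc' : ((derivPoly k a₀ a).map (Int.castRingHom F)).eval c = 0) :
    ∃ i, IsPoint k a₀ a c i ∧ (form k a₀ a b i : F) = 0 := by
  suffices ∃ i, IsPoint k a₀ a c i by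
    obtain ⟨i, hi⟩ := this
    exact ⟨i, hi, by rw [cast_form hi, hc, mul_zero]⟩
  rw [map_derivPoly, eval_mul, mul_eq_zero, eval_prod, prod_eq_zero_iff] at hc'
  simp only [eval_sub, eval_mul, eval_C, eval_X, sub_eq_zero, eq_intCast, mem_univ,
    true_and] at hc'
  rcases hc' with hc' | ⟨j, hj⟩
  · exact ⟨none, hc'⟩
  · exact ⟨some j, hj⟩

/-- Scaling the critical points scales the offsets. -/
theorem kPoly_scale (h : Adm k a₀ a) (T : ℤ) :
    (kPoly k (T * a₀) fun j => T * a j).comp (C T * X) = C (T ^ (k + 2)) * kPoly k a₀ a := by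
  have hD : derivative ((kPoly k (T * a₀) fun j => T * a j).comp (C T * X) -
      C (T ^ (k + 2)) * kPoly k a₀ a) = 0 := by
    rw [derivative_sub, derivative_comp, derivative_kPoly (h.smul T), derivative_C_mul,
      derivative_C_mul, derivative_X, derivative_kPoly h, derivPoly, derivPoly, mul_comp,
      Polynomial.prod_comp]
    have e : ∀ j, (X - C (T * a j)).comp (C T * X) = C T * (X - C (a j)) := fun j => by
      rw [sub_comp, X_comp, C_comp, map_mul]
      ring
    rw [prod_congr rfl fun j _ => e j]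
    simp only [prod_mul_distrib, prod_const, card_univ, Fintype.card_fin, sub_comp, mul_comp,
      C_comp, X_comp, map_mul, map_pow]
    ring
  have h0 := eq_C_of_derivative_eq_zero hD
  rwa [coeff_sub, coeff_C_mul, coeff_zero_eq_eval_zero (p := Polynomial.comp _ _), eval_comp,
    eval_mul, eval_X, mul_zero, ← coeff_zero_eq_eval_zero, coeff_zero_kPoly, coeff_zero_kPoly,
    mul_zero, sub_zero, C_0, sub_eq_zero] at h0

end FA.KedlayaDisc

end
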