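import Fermat.Agent.KedlayaDisc.Primitive
import Fermat.Agent.UchidaYamamura.Inertia

/-!
# The reductions of `P + b`

If the forms are pairwise coprime and `a₀` is prime to `k + 2`, every reduction has at most one
double root and no triple one, and inertia is trivial at the primes dividing no form. A prime
`p ≤ k + 2` leaves a residue of `b` at which it divides no form; modulo a prime `ℓ > k + 2`
dividing every `a_j` and `a₀ - (k + 1)` the primitive is `X ^ (k + 2) - X ^ (k + 1)`.
-/

set_option autoImplicit false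

noncomputable section

open Polynomial Finset Fermat.Agent
open scoped Polynomial

namespace FA.KedlayaDisc

local notation "Qb" => AlgebraicClosure ℚ
local notation "GQ" => AlgebraicClosure ℚ ≃ₐ[ℚ] AlgebraicClosure ℚ

open UchidaYamamura (MildReductions cast_eq_zero_of_isCoprime)

variable {k : ℕ} {a₀ b : ℤ} {a : Fin k → ℤ}

theorem eval_double_root (h : Adm k a₀ a) {F : Type*} [Field F] {c : F}
    (hc : (X - C c) ^ 2 ∣ (kPolyAdd k a₀ a b).map (Int.castRingHom F)) :
    ((kPolyAdd k a₀ a b).map (Int.castRingHom F)).eval c = 0 ∧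
      ((derivPoly k a₀ a).map (Int.castRingHom F)).eval c = 0 := by
  refine ⟨dvd_iff_isRoot.1 ((dvd_pow_self _ two_ne_zero).trans hc), ?_⟩
  have h1 := pow_sub_one_dvd_derivative_of_pow_dvd hc
  rw [derivative_map, derivative_kPolyAdd h, show 2 - 1 = 1 from rfl, pow_one] at h1
  exact dvd_iff_isRoot.1 h1

/-- A double zero of the derivative is the critical point of two indices. -/
theorem exists_two_points {F : Type*} [Field F] (hn : IsCoprime a₀ ((k : ℤ) + 2)) {c : F}
    (h0 : ((derivPoly k a₀ a).map (Int.castRingHom F)).eval c = 0)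
    (h1 : (derivative ((derivPoly k a₀ a).map (Int.castRingHom F))).eval c = 0) :
    ∃ i j, i ≠ j ∧ IsPoint k a₀ a c i ∧ IsPoint k a₀ a c j := by
  classical
  rw [map_derivPoly] at h0 h1
  simp only [eq_intCast] at h0 h1
  rw [eval_mul, mul_eq_zero, eval_prod, prod_eq_zero_iff] at h0
  simp only [eval_sub, eval_mul, eval_C, eval_X, sub_eq_zero, mem_univ, true_and] at h0
  rw [derivative_mul, eval_add, eval_mul, eval_mul] at h1
  rcases h0 with h0 | ⟨j, hj⟩
  · have hne : (k : F) + 2 ≠ 0 := fun e => by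
      rcases cast_eq_zero_of_isCoprime (k := F) hn with h | h
      · exact h (by rw [← h0, e, zero_mul])
      · exact h (by push_cast; exact e)
    simp only [eval_sub, eval_mul, eval_C, eval_X, derivative_sub, derivative_C_mul,
      derivative_X, derivative_C, mul_one, h0, sub_self, zero_mul, add_zero, sub_zero,
      mul_eq_zero, hne, false_or, eval_prod, prod_eq_zero_iff, sub_eq_zero, mem_univ,
      true_and] at h1
    obtain ⟨j, hj⟩ := h1
    exact ⟨none, some j, nofun, h0, hj⟩
  · have hQ : (∏ l, (X - C ((a l : F)))).eval c = 0 := by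
      rw [eval_prod]
      exact prod_eq_zero (mem_univ j) (by rw [eval_sub, eval_X, eval_C, hj, sub_self])
    rw [hQ, mul_zero, zero_add, ← mul_prod_erase univ (fun l => X - C ((a l : F))) (mem_univ j),
      derivative_mul, eval_add, eval_mul, eval_mul] at h1
    simp only [derivative_X_sub_C, eval_one, one_mul, eval_sub, eval_X, eval_C, hj, sub_self,
      zero_mul, add_zero, eval_mul, mul_eq_zero, eval_prod, prod_eq_zero_iff, sub_eq_zero,
      mem_erase, mem_univ, and_true] at h1
    rcases h1 with h1 | ⟨l, hl, hl'⟩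
    · exact ⟨none, some j, nofun, by rw [IsPoint, hj]; exact h1, hj⟩
    · exact ⟨some l, some j, fun e => hl (Option.some_injective _ e), by
        rw [IsPoint, hj]; exact hl', hj⟩

theorem eq_of_form_eq_zero
    (hcop : Pairwise fun i j => IsCoprime (form k a₀ a b i) (form k a₀ a b j))
    {F : Type*} [Field F] {i j : Option (Fin k)} (hi : (form k a₀ a b i : F) = 0)
    (hj : (form k a₀ a b j : F) = 0) : i = j :=
  by_contra fun hij => (cast_eq_zero_of_isCoprime (k := F) (hcop hij)).elim
    (fun h => h hi) (fun h => h hj)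

/-- **At most one double root and no triple root.** -/
theorem mildReductions_kPolyAdd (h : Adm k a₀ a) (hn : IsCoprime a₀ ((k : ℤ) + 2))
    (hcop : Pairwise fun i j => IsCoprime (form k a₀ a b i) (form k a₀ a b j)) :
    MildReductions (kPolyAdd k a₀ a b) := by
  intro F _
  refine ⟨fun c d hc hd => ?_, fun c hc => ?_⟩
  · obtain ⟨i, hi, hi0⟩ := exists_form_eq_zero (eval_double_root h hc).1 (eval_double_root h hc).2
    obtain ⟨j, hj, hj0⟩ := exists_form_eq_zero (eval_double_root h hd).1 (eval_double_root h hd).2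
    obtain rfl := eq_of_form_eq_zero hcop hi0 hj0
    cases i with
    | some l => exact hi.trans hj.symm
    | none =>
      have hne : (k : F) + 2 ≠ 0 := fun e => by
        rcases cast_eq_zero_of_isCoprime (k := F) hn with h | h
        · exact h (by rw [← hi, e, zero_mul])
        · exact h (by push_cast; exact e)
      exact mul_left_cancel₀ hne (hi.trans hj.symm)
  · obtain ⟨h0, h1⟩ := eval_double_root h ((pow_dvd_pow _ (by norm_num : 2 ≤ 3)).trans hc)
    have h2 : (derivative ((derivPoly k a₀ a).map (Int.castRingHom F))).eval c = 0 := by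
      have e := pow_sub_one_dvd_derivative_of_pow_dvd hc
      rw [derivative_map, derivative_kPolyAdd h] at e
      have e' := pow_sub_one_dvd_derivative_of_pow_dvd e
      rw [show 3 - 1 - 1 = 1 from rfl, pow_one] at e'
      exact dvd_iff_isRoot.1 e'
    obtain ⟨i, j, hij, hi, hj⟩ := exists_two_points hn h1 h2
    exact hij (eq_of_form_eq_zero (F := F) hcop (by rw [cast_form hi, h0, mul_zero])
      (by rw [cast_form hj, h0, mul_zero]))

/-- Inertia is trivial at the primes dividing no form. -/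
theorem inertia_eq_one_of_not_dvd (h : Adm k a₀ a)
    (hf : MildReductions (kPolyAdd k a₀ a b)) {q : ℕ} (hq : q.Prime)
    (hqD : ∀ i, ¬(q : ℤ) ∣ form k a₀ a b i) {A : ValuationSubring Qb} (hAq : A.LiesOverPrime q)
    {σ : GQ} (hσ : σ ∈ A.inertiaSubgroupIn ℚ) :
    VanDerWaerden.rootsAction (kPolyAdd k a₀ a b) σ = 1 := by
  classical
  rcases UchidaYamamura.inertia_cases (kPolyAdd_monic k a₀ a b).1 hf hσ with h' | ⟨-, c, hc⟩
  · exact h'
  exfalso
  obtain ⟨i, -, hi⟩ := exists_form_eq_zero (eval_double_root h hc).1 (eval_double_root h hc).2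
  rcases cast_eq_zero_of_isCoprime (k := IsLocalRing.ResidueField A)
    ((Nat.prime_iff_prime_int.1 hq).coprime_iff_not_dvd.2 (hqD i)) with e | e
  · exact e (by rw [Int.cast_natCast]; exact UchidaYamamura.residue_natCast_eq_zero hAq)
  · exact e hi

/-- **A residue avoiding the zeros of the forms modulo a small prime.** -/
theorem exists_good_residue (h : Adm k a₀ a) (hn : IsCoprime a₀ ((k : ℤ) + 2)) {p : ℕ}
    (hp : p.Prime) (hpk : p ≤ k + 2) : ∃ r : ℕ, ∀ i, ¬(p : ℤ) ∣ form k a₀ a r i := by
  have := Fact.mk hp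
  have hsome : ∀ j, ((offset k a₀ a (some j) : ℤ) : ZMod p) = 0 := fun j => by
    rw [ZMod.intCast_zmod_eq_zero_iff_dvd]
    have e := sub_dvd_eval_sub (a j) 0 (kPoly k a₀ a)
    rw [sub_zero, ← coeff_zero_eq_eval_zero, coeff_zero_kPoly, sub_zero] at e
    exact ((Int.natCast_dvd_natCast.2 (Nat.dvd_factorial hp.pos hpk)).trans (h.dvd_rest j)).trans e
  suffices ∃ r : ZMod p, ∀ i, (slope k i : ZMod p) * r + (offset k a₀ a i : ZMod p) ≠ 0 by
    obtain ⟨r, hr⟩ := this
    refine ⟨r.val, fun i hi => hr i ?_⟩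
    rw [← ZMod.intCast_zmod_eq_zero_iff_dvd, form] at hi
    push_cast at hi
    rwa [ZMod.natCast_val, ZMod.cast_id] at hi
  by_cases hpn : p ∣ k + 2
  · have h0 : (((k : ℤ) + 2 : ℤ) : ZMod p) = 0 := by
      rw [ZMod.intCast_zmod_eq_zero_iff_dvd]
      exact_mod_cast hpn
    refine ⟨1, fun i => ?_⟩
    cases i with
    | some j => rw [hsome, slope]; simp
    | none =>
      have ha₀ : (a₀ : ZMod p) ≠ 0 := fun e =>
        (cast_eq_zero_of_isCoprime (k := ZMod p) hn).elim (fun g => g e) (fun g => g h0)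
      have hm := (kPoly_monic k a₀ a).1
      rw [slope, Int.cast_pow, h0, zero_pow (by omega), zero_mul, zero_add, offset,
        ← eq_intCast (Int.castRingHom (ZMod p)) _, ← eval_map_apply,
        map_scaleRoots _ _ _ (by rw [hm.leadingCoeff, map_one]; exact one_ne_zero), eq_intCast,
        eq_intCast, h0, scaleRoots_zero, (hm.map _).leadingCoeff]
      simp only [one_smul, eval_pow, eval_X]
      exact pow_ne_zero _ ha₀
  · have hu : (slope k none : ZMod p) ≠ 0 := by
      rw [slope, Ne, ZMod.intCast_zmod_eq_zero_iff_dvd]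
      exact fun e => hpn (by exact_mod_cast (Nat.prime_iff_prime_int.1 hp).dvd_of_dvd_pow e)
    obtain ⟨s, hs⟩ : ∃ s : ZMod p, s = -(offset k a₀ a none : ZMod p) / slope k none := ⟨_, rfl⟩
    have hlt : ({0, s} : Finset (ZMod p)).card < Fintype.card (ZMod p) := by
      rw [ZMod.card]
      rcases eq_or_lt_of_le hp.two_le with rfl | h3
      · have hs0 : s = 0 := by
          have h2 : (2 : ℤ) ∣ a₀ := dvd_trans (by omega) h.dvd_first
          rw [hs, div_eq_zero_iff, neg_eq_zero]
          refine Or.inl ((ZMod.intCast_zmod_eq_zero_iff_dvd _ 2).2 ?_)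
          have e := sub_dvd_eval_sub a₀ 0 ((kPoly k a₀ a).scaleRoots ((k : ℤ) + 2))
          rw [sub_zero, ← coeff_zero_eq_eval_zero, coeff_scaleRoots, coeff_zero_kPoly, zero_mul,
            sub_zero] at e
          exact h2.trans e
        simp [hs0]
      · exact card_le_two.trans_lt h3
    obtain ⟨r, hr⟩ := exists_mem_notMem_of_card_lt_card (t := univ) hlt
    rw [mem_insert, mem_singleton, not_or] at hr
    refine ⟨r, fun i => ?_⟩
    cases i with
    | some j => rw [hsome, slope]; simpa using hr.2.1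
    | none =>
      intro e
      refine hr.2.2 ?_
      rw [hs, eq_div_iff hu]
      linear_combination e

/-- **Modulo an auxiliary prime.** -/
theorem map_kPoly_zmod (h : Adm k a₀ a) {l : ℕ} [Fact l.Prime] (hl : k + 2 < l)
    (ha : ∀ j, (l : ℤ) ∣ a j) (ha₀ : (l : ℤ) ∣ a₀ - ((k : ℤ) + 1)) :
    (kPoly k a₀ a).map (Int.castRingHom (ZMod l)) = X ^ (k + 2) - X ^ (k + 1) := by
  obtain ⟨Q, hQ⟩ : ∃ Q, Q = (kPoly k a₀ a).map (Int.castRingHom (ZMod l)) -
      (X ^ (k + 2) - X ^ (k + 1)) := ⟨_, rfl⟩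
  have hd : derivative Q = 0 := by
    rw [hQ, derivative_sub, derivative_map, derivative_kPoly h, map_derivPoly]
    simp only [eq_intCast, (ZMod.intCast_zmod_eq_zero_iff_dvd _ l).2 (ha _),
      show (a₀ : ZMod l) = (((k : ℤ) + 1 : ℤ) : ZMod l) from
        sub_eq_zero.1 (by rw [← Int.cast_sub, ZMod.intCast_zmod_eq_zero_iff_dvd]; exact ha₀)]
    simp [map_ofNat]
    ring
  refine sub_eq_zero.1 (hQ.symm.trans (Polynomial.ext fun i => ?_))
  have hdeg : Q.natDegree ≤ k + 2 := hQ ▸ (natDegree_sub_le _ _).trans (max_le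
    (natDegree_map_le.trans (kPoly_monic k a₀ a).2.le)
    ((natDegree_sub_le _ _).trans (max_le (natDegree_X_pow_le _)
      ((natDegree_X_pow_le _).trans (by omega)))))
  rw [coeff_zero]
  rcases i with _ | i
  · simp [hQ, coeff_zero_kPoly]
  rcases lt_or_ge (k + 2) (i + 1) with hi | hi
  · exact coeff_eq_zero_of_natDegree_lt (hdeg.trans_lt hi)
  have e := congrArg (fun P => P.coeff i) hd
  simp only [coeff_derivative, coeff_zero, mul_eq_zero] at e
  refine e.resolve_right ?_
  rw [← Nat.cast_succ, ZMod.natCast_eq_zero_iff]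
  exact fun g => absurd (Nat.le_of_dvd (Nat.succ_pos i) g) (by omega)

/-- The polynomial is irreducible and no form vanishes modulo the auxiliary prime. -/
theorem irreducible_of_auxiliary (h : Adm k a₀ a) {l : ℕ} [Fact l.Prime] (hl : k + 2 < l)
    (ha : ∀ j, (l : ℤ) ∣ a j) (ha₀ : (l : ℤ) ∣ a₀ - ((k : ℤ) + 1))
    (hb : (l : ℤ) ∣ b - (-1) ^ (k + 3))
    (hirr : Irreducible (X ^ (k + 2) - X ^ (k + 1) + C ((-1) ^ (k + 3)) : (ZMod l)[X])) :
    Irreducible ((kPolyAdd k a₀ a b).map (Int.castRingHom ℚ)) ∧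
      ∀ i, ¬(l : ℤ) ∣ form k a₀ a b i := by
  have hmap : (kPolyAdd k a₀ a b).map (Int.castRingHom (ZMod l)) =
      X ^ (k + 2) - X ^ (k + 1) + C ((-1) ^ (k + 3)) := by
    rw [kPolyAdd, Polynomial.map_add, map_kPoly_zmod h hl ha ha₀, map_C, eq_intCast,
      sub_eq_zero.1 (show (b : ZMod l) - (((-1) ^ (k + 3) : ℤ) : ZMod l) = 0 by
        rwa [← Int.cast_sub, ZMod.intCast_zmod_eq_zero_iff_dvd])]
    push_cast
    rfl
  obtain ⟨hm, hdeg⟩ := kPolyAdd_monic k a₀ a b
  rw [← hmap] at hirr
  refine ⟨(IsPrimitive.Int.irreducible_iff_irreducible_map_cast hm.isPrimitive).1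
    (hm.irreducible_of_irreducible_map _ _ hirr), fun i => ?_⟩
  have hne : (k : ZMod l) + 2 ≠ 0 := by
    rw [show (k : ZMod l) + 2 = ((k + 2 : ℕ) : ZMod l) by push_cast; rfl, Ne,
      ZMod.natCast_eq_zero_iff]
    exact fun g => absurd (Nat.le_of_dvd (by omega) g) (by omega)
  obtain ⟨c, hc⟩ : ∃ c : ZMod l, IsPoint k a₀ a c i := by
    cases i with
    | none => exact ⟨(a₀ : ZMod l) / ((k : ZMod l) + 2), mul_div_cancel₀ _ hne⟩
    | some j => exact ⟨_, rfl⟩
  rw [← ZMod.intCast_zmod_eq_zero_iff_dvd, cast_form hc, mul_eq_zero]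
  rintro (e | e)
  · cases i with
    | none => rw [slope] at e; push_cast at e; exact hne (pow_eq_zero_iff'.1 e).1
    | some j => rw [slope] at e; simp at e
  · exact hirr.not_isRoot_of_natDegree_ne_one (by rw [hm.natDegree_map, hdeg]; omega) e

end FA.KedlayaDisc

end
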